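import Fermat.Agent.BadRed.Ramified.Valuation
import Fermat.Agent.BadRed.IntSeries

/-!
# The count at the nodes

Let `W i = div (red_i f) - ord_{P i} f · ∞`.  The reduced space of `L(⌊div f / n⌋ + m (∞ + 0))`,
multiplied by `f` after taking `n`-th powers, consists of glued pairs; comparing dimensions for `f`
and `f⁻¹` shows the following.  If `n ∣ ord_v f` off the two cusps, then `n ∣ W i` off the glued
points and a glued pair is divisible on both sides or on none.  If the exceptions `v` are at most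
as many as the unglued points with `n ∤ W i`, inertia fixes the `n`-th root of the ratio of the
scalings as soon as some glued pair is divisible.
-/

set_option autoImplicit false

noncomputable section

open AlgebraicCurve FLTA.Curves

namespace FLTA.BadRed.BadFibre

variable {K : Type*} [Field K] [IsAlgClosed K] [CharZero K] {A : ValuationSubring K}
  {k : Type*} [Field k] [IsAlgClosed k] {π : A →+* k}
  {q : ℕ} [NeZero q] [Fact q.Prime] [CharP k q]
  {F : Type*} [Field F] [Algebra K F] {F' : Type*} [Field F'] [Algebra K F']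
  {Fk : Type*} [Field Fk] [Algebra k Fk] {g gF : ℕ} (B : BadFibre A π q F F' Fk g gF)

section Nodes

omit [IsAlgClosed K] [CharZero K] [IsAlgClosed k] [Fact q.Prime] [CharP k q]

/-- The point of the component `i` over a glued place. -/
def nodePt (i : Fin 2) (Q : Place k Fk) : Place k Fk := ![Q, B.frobq • Q] i

@[simp] theorem nodePt_zero (Q : Place k Fk) : B.nodePt 0 Q = Q := rfl

@[simp] theorem nodePt_one (Q : Place k Fk) : B.nodePt 1 Q = B.frobq • Q := rfl

theorem nodePt_injective (i : Fin 2) : Function.Injective (B.nodePt i) := by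
  revert i
  exact Fin.forall_fin_two.mpr ⟨fun _ _ h => h, fun _ _ h => MulAction.injective B.frobq h⟩

variable {B} {S : Finset (Place k Fk)} {m₀ : ℕ}

theorem IsGluing.nodePt_ne (hS : B.IsGluing S m₀) (i : Fin 2) {Q : Place k Fk} (hQ : Q ∈ S) :
    B.nodePt i Q ≠ B.infk := by
  revert i
  exact Fin.forall_fin_two.mpr ⟨fun h => hS.infk_notMem (h ▸ hQ), hS.smul_ne Q hQ⟩

/-- The divisor of the reduction, corrected by the cusp. -/
def ScaledRed.wDiv {f : F} (d : B.ScaledRed f) (i : Fin 2) : Divisor k Fk :=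
  haveI := B.rrk.principal
  divFn (d.p i) - Finsupp.single B.infk ((B.P i).ord f)

theorem ScaledRed.wDiv_of_ne {f : F} (d : B.ScaledRed f) (i : Fin 2) {v : Place k Fk}
    (hv : v ≠ B.infk) : d.wDiv i v = v.ord (d.p i) := by
  have := B.rrk.principal
  rw [wDiv, Finsupp.sub_apply, Finsupp.single_eq_of_ne hv, sub_zero, divFn_apply]

theorem ScaledRed.wDiv_infk {f : F} (d : B.ScaledRed f) (i : Fin 2) :
    d.wDiv i B.infk = B.infk.ord (d.p i) - (B.P i).ord f := by
  have := B.rrk.principal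
  rw [wDiv, Finsupp.sub_apply, Finsupp.single_eq_same, divFn_apply]

theorem ScaledRed.degree_wDiv {f : F} (d : B.ScaledRed f) (i : Fin 2) :
    Divisor.degree (d.wDiv i) = -(B.P i).ord f := by
  have := B.rrk.principal
  rw [wDiv, map_sub, degree_divFn, B.rrk.degree_single_eq, zero_sub]

theorem ScaledRed.wDiv_inv {f : F} (d : B.ScaledRed f) (i : Fin 2) :
    d.inv.wDiv i = -d.wDiv i := by
  ext v
  rw [Finsupp.neg_apply]
  rcases eq_or_ne v B.infk with rfl | hv
  · rw [wDiv_infk, wDiv_infk, (B.P i).ord_inv, show d.inv.p i = (d.p i)⁻¹ from rfl, Place.ord_inv]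
    ring
  · rw [wDiv_of_ne _ i hv, wDiv_of_ne _ i hv, show d.inv.p i = (d.p i)⁻¹ from rfl, Place.ord_inv]

/-- The glued places good on the side `i`. -/
def ScaledRed.good {f : F} (d : B.ScaledRed f) (n : ℕ) (S : Finset (Place k Fk)) (i : Fin 2) :
    Finset (Place k Fk) :=
  S.filter fun Q => (n : ℤ) ∣ (B.nodePt i Q).ord (d.p i)

theorem ScaledRed.good_inv {f : F} (d : B.ScaledRed f) (n : ℕ) (i : Fin 2) :
    d.inv.good n S i = d.good n S i := by
  refine Finset.filter_congr fun Q _ => ?_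
  rw [show d.inv.p i = (d.p i)⁻¹ from rfl, Place.ord_inv, dvd_neg]

theorem ScaledRed.mem_good {f : F} {d : B.ScaledRed f} {n : ℕ} {i : Fin 2} {Q : Place k Fk} :
    Q ∈ d.good n S i ↔ Q ∈ S ∧ (n : ℤ) ∣ (B.nodePt i Q).ord (d.p i) :=
  Finset.mem_filter

/-- `n` divides all orders of `f` off the two cusps. -/
def DvdOffCusps (B : BadFibre A π q F F' Fk g gF) (n : ℕ) (f : F) : Prop :=
  ∀ v : Place K F, v ≠ B.P 0 → v ≠ B.P 1 → (n : ℤ) ∣ v.ord f

theorem DvdOffCusps.inv {n : ℕ} {f : F} (h : B.DvdOffCusps n f) : B.DvdOffCusps n f⁻¹ :=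
  fun v h0 h1 => by rw [v.ord_inv, dvd_neg]; exact h v h0 h1

open Classical in
/-- `⌊div f / n⌋` off the cusps, plus `m` times the cusps. -/
def rootDiv (B : BadFibre A π q F F' Fk g gF) (n : ℕ) (f : F) (m : ℕ) : Divisor K F :=
  haveI := B.rrF.principal
  ((divFn (K := K) f).filter fun v => v ≠ B.P 0 ∧ v ≠ B.P 1).mapRange (fun x => x / (n : ℤ))
    (Int.zero_ediv _) + B.cuspDiv m

open Classical in
/-- The remainders of `div f` modulo `n` off the cusps. -/
def remDiv (B : BadFibre A π q F F' Fk g gF) (n : ℕ) (f : F) : Divisor K F :=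
  haveI := B.rrF.principal
  ((divFn (K := K) f).filter fun v => v ≠ B.P 0 ∧ v ≠ B.P 1).mapRange (fun x => x % (n : ℤ))
    (Int.zero_emod _)

/-- The deficit: the total remainder off the cusps. -/
def defect (B : BadFibre A π q F F' Fk g gF) (n : ℕ) (f : F) : ℤ :=
  Divisor.degree (B.remDiv n f)

theorem rootDiv_of_ne (n : ℕ) (f : F) (m : ℕ) {v : Place K F} (h0 : v ≠ B.P 0)
    (h1 : v ≠ B.P 1) : B.rootDiv n f m v = v.ord f / (n : ℤ) := by
  classical
  have := B.rrF.principal
  rw [rootDiv, Finsupp.add_apply, Finsupp.mapRange_apply, Finsupp.filter_apply, if_pos ⟨h0, h1⟩,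
    divFn_apply, cuspDiv_apply_of_ne B _ h0 h1, add_zero]

theorem rootDiv_P (hq : 2 ≤ q) (n : ℕ) (f : F) (m : ℕ) (i : Fin 2) :
    B.rootDiv n f m (B.P i) = m := by
  classical
  have := B.rrF.principal
  rw [rootDiv, Finsupp.add_apply, Finsupp.mapRange_apply, Finsupp.filter_apply, if_neg,
    Int.zero_ediv, cuspDiv_apply B hq, zero_add]
  revert i
  exact Fin.forall_fin_two.mpr ⟨fun h => h.1 rfl, fun h => h.2 rfl⟩

theorem remDiv_of_ne (n : ℕ) (f : F) {v : Place K F} (h0 : v ≠ B.P 0) (h1 : v ≠ B.P 1) :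
    B.remDiv n f v = v.ord f % (n : ℤ) := by
  classical
  have := B.rrF.principal
  rw [remDiv, Finsupp.mapRange_apply, Finsupp.filter_apply, if_pos ⟨h0, h1⟩, divFn_apply]

theorem remDiv_P (n : ℕ) (f : F) (i : Fin 2) : B.remDiv n f (B.P i) = 0 := by
  classical
  have := B.rrF.principal
  rw [remDiv, Finsupp.mapRange_apply, Finsupp.filter_apply, if_neg, Int.zero_emod]
  revert i
  exact Fin.forall_fin_two.mpr ⟨fun h => h.1 rfl, fun h => h.2 rfl⟩

theorem defect_eq_zero {n : ℕ} {f : F} (hdvd : B.DvdOffCusps n f) : B.defect n f = 0 := by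
  have e : B.remDiv n f = 0 := Finsupp.ext fun v => by
    by_cases h0 : v = B.P 0
    · rw [h0, remDiv_P]; rfl
    by_cases h1 : v = B.P 1
    · rw [h1, remDiv_P]; rfl
    rw [remDiv_of_ne n f h0 h1, Int.emod_eq_zero_of_dvd (hdvd v h0 h1)]
    rfl
  rw [defect, e, map_zero]

/-- The deficit of `f` and `f⁻¹` is at most `n` for each exception. -/
theorem defect_add_inv_le {n : ℕ} (hn : 0 < n) {f : F} {C : Finset (Place K F)}
    (hC : ∀ v : Place K F, v ≠ B.P 0 → v ≠ B.P 1 → v ∉ C → (n : ℤ) ∣ v.ord f) :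
    B.defect n f + B.defect n f⁻¹ ≤ n * C.card := by
  classical
  have hn' : (0 : ℤ) < n := by exact_mod_cast hn
  have h := B.rrF.degree_mono (D := B.remDiv n f + B.remDiv n f⁻¹)
    (E := ∑ v ∈ C, Finsupp.single v (n : ℤ)) (Finsupp.le_def.mpr fun v => by
      simp only [Finsupp.finsetSum_apply, Finsupp.single_apply, Finset.sum_ite_eq', Finsupp.add_apply]
      have hge : (0 : ℤ) ≤ if v ∈ C then (n : ℤ) else 0 := by split_ifs <;> omega
      by_cases h0 : v = B.P 0
      · simpa [h0, remDiv_P] using hge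
      by_cases h1 : v = B.P 1
      · simpa [h1, remDiv_P] using hge
      rw [remDiv_of_ne n f h0 h1, remDiv_of_ne n f⁻¹ h0 h1, v.ord_inv]
      split_ifs with hv
      · rcases eq_or_ne (v.ord f % (n : ℤ)) 0 with hz | hz
        · rw [hz, Int.emod_eq_zero_of_dvd (dvd_neg.mpr (Int.dvd_of_emod_eq_zero hz))]
          simp
        · have h3 : (n : ℤ) ∣ v.ord f % n + (-v.ord f) % n := by
            rw [Int.dvd_iff_emod_eq_zero, ← Int.add_emod, add_neg_cancel, Int.zero_emod]
          have h4 := Int.emod_lt_of_pos (v.ord f) hn'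
          have h5 := Int.emod_lt_of_pos (-v.ord f) hn'
          obtain ⟨t, ht⟩ := h3
          have : t ≤ 1 := by nlinarith
          nlinarith
      · rw [Int.emod_eq_zero_of_dvd (hC v h0 h1 hv),
          Int.emod_eq_zero_of_dvd (dvd_neg.mpr (hC v h0 h1 hv))]
        simp)
  rw [map_add, map_sum] at h
  simp only [B.rrF.degree_single_eq, Finset.sum_const, nsmul_eq_mul] at h
  rw [mul_comm]
  exact h

theorem degree_rootDiv (hq : 2 ≤ q) (n : ℕ) (f : F) (m : ℕ) :
    (n : ℤ) * Divisor.degree (B.rootDiv n f m) =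
      -(B.P 0).ord f - (B.P 1).ord f + 2 * n * m - B.defect n f := by
  classical
  have := B.rrF.principal
  have e : (n : ℤ) • B.rootDiv n f m = divFn f - Finsupp.single (B.P 0) ((B.P 0).ord f)
      - Finsupp.single (B.P 1) ((B.P 1).ord f) + (n : ℤ) • B.cuspDiv m - B.remDiv n f := by
    ext v
    have h01 := P_zero_ne_P_one B hq
    simp only [Finsupp.smul_apply, smul_eq_mul, Finsupp.add_apply, Finsupp.sub_apply, divFn_apply]
    by_cases h0 : v = B.P 0
    · subst h0
      rw [rootDiv_P hq, remDiv_P, cuspDiv_apply B hq, Finsupp.single_eq_same,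
        Finsupp.single_eq_of_ne h01]
      ring
    by_cases h1 : v = B.P 1
    · subst h1
      rw [rootDiv_P hq, remDiv_P, cuspDiv_apply B hq, Finsupp.single_eq_same,
        Finsupp.single_eq_of_ne h0]
      ring
    rw [rootDiv_of_ne n f m h0 h1, remDiv_of_ne n f h0 h1, cuspDiv_apply_of_ne B _ h0 h1,
      Finsupp.single_eq_of_ne h0, Finsupp.single_eq_of_ne h1]
    linear_combination Int.mul_ediv_add_emod (v.ord f) (n : ℤ)
  have h := congrArg Divisor.degree e
  rw [map_zsmul, map_sub, map_add, map_sub, map_sub, degree_divFn, B.rrF.degree_single_eq,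
    B.rrF.degree_single_eq, map_zsmul, degree_cuspDiv, smul_eq_mul, smul_eq_mul] at h
  rw [h, defect]
  ring

/-- The bound on the side `i` for the reduced sections. -/
def ScaledRed.lam {f : F} (d : B.ScaledRed f) (n m : ℕ) (i : Fin 2) : Divisor k Fk :=
  (d.wDiv i).mapRange (fun x => x / (n : ℤ)) (Int.zero_ediv _) + Finsupp.single B.infk (m : ℤ)

/-- The remainders of `W i` modulo `n`. -/
def ScaledRed.rem {f : F} (d : B.ScaledRed f) (n : ℕ) (i : Fin 2) : Divisor k Fk :=
  (d.wDiv i).mapRange (fun x => x % (n : ℤ)) (Int.zero_emod _)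

end Nodes

section Count

variable {B} {S : Finset (Place k Fk)} {m₀ : ℕ} {n : ℕ} {f : F}

omit [IsAlgClosed k] in
/-- Sections give glued pairs. -/
theorem exists_section_of_mem (hn : 0 < n) (d : B.ScaledRed f)
    {δ : Fin 2 → K} (hδ : ∀ i, δ i ^ n * d.c i = 1) {m : ℕ} {y : Fin 2 → Fk}
    (hy : y ∈ B.redSpace δ (B.rootDiv n f m)) :
    ∃ (G : F) (l : ℕ), G ∈ riemannRochSpace (B.cuspDiv l) ∧
      B.IsRed G (fun i => y i ^ n * d.p i) ∧
      ∀ i, y i ≠ 0 → (B.P i).ord f - n * (m : ℤ) ≤ (B.e i G).order := by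
  have hq : 2 ≤ q := (Fact.out : q.Prime).two_le
  obtain ⟨G, hG, hGy⟩ := hy
  have hred : ∀ i, B.HasRed i (G ^ n * f) (y i ^ n * d.p i) := fun i => by
    have h := ((hGy i).pow n).mul (d.red i)
    rwa [smul_pow, smul_mul_smul_comm, hδ, one_smul] at h
  set l : ℕ := n * m + ((B.P 0).ord f).natAbs + ((B.P 1).ord f).natAbs
  have hmem : G ^ n * f ∈ riemannRochSpace (B.cuspDiv l) := by
    rw [mem_riemannRochSpace_iff]
    intro v
    rcases eq_or_ne G 0 with hG0 | hG0
    · exact Or.inl (by rw [hG0, zero_pow hn.ne', zero_mul])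
    refine Or.inr ?_
    have hGv := (mem_riemannRochSpace_iff.mp hG v).resolve_left hG0
    rw [v.ord_mul (pow_ne_zero _ hG0) d.ne_zero, FLTA.Curves.ord_pow]
    by_cases h0 : v = B.P 0
    · rw [h0, rootDiv_P hq] at hGv
      rw [h0, cuspDiv_apply B hq]
      have := mul_le_mul_of_nonneg_left hGv (Int.natCast_nonneg n)
      rw [mul_neg] at this
      simp only [l, Nat.cast_add, Nat.cast_mul]
      omega
    by_cases h1 : v = B.P 1
    · rw [h1, rootDiv_P hq] at hGv
      rw [h1, cuspDiv_apply B hq]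
      have := mul_le_mul_of_nonneg_left hGv (Int.natCast_nonneg n)
      rw [mul_neg] at this
      simp only [l, Nat.cast_add, Nat.cast_mul]
      omega
    rw [rootDiv_of_ne n f m h0 h1] at hGv
    rw [cuspDiv_apply_of_ne B _ h0 h1]
    have h2 := mul_le_mul_of_nonneg_left hGv (Int.natCast_nonneg n)
    rw [mul_neg] at h2
    have := Int.mul_ediv_add_emod (v.ord f) (n : ℤ)
    have := Int.emod_nonneg (v.ord f) (Int.natCast_ne_zero.mpr hn.ne')
    omega
  refine ⟨G ^ n * f, l, hmem, ⟨fun i => ?_, fun i => ?_⟩, fun i hi => ?_⟩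
  · exact ((hred i).intSeries (B.bddSeries_e i hmem)).1
  · exact ((hred i).intSeries (B.bddSeries_e i hmem)).2.symm
  · have hG0 : G ≠ 0 := fun h0 => (hGy i).ne_zero hi (by rw [h0, smul_zero])
    have hGv := (mem_riemannRochSpace_iff.mp hG (B.P i)).resolve_left hG0
    rw [rootDiv_P hq] at hGv
    rw [← B.ord_P i (mul_ne_zero (pow_ne_zero _ hG0) d.ne_zero),
      (B.P i).ord_mul (pow_ne_zero _ hG0) d.ne_zero, FLTA.Curves.ord_pow]
    have := mul_le_mul_of_nonneg_left hGv (Int.natCast_nonneg n)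
    rw [mul_neg] at this
    omega

/-- The reduced sections lie in `L(lam i)`. -/
theorem mem_lam (hS : B.IsGluing S m₀) (hn : 0 < n)
    (d : B.ScaledRed f) {δ : Fin 2 → K} (hδ : ∀ i, δ i ^ n * d.c i = 1) {m : ℕ}
    {y : Fin 2 → Fk} (hy : y ∈ B.redSpace δ (B.rootDiv n f m)) (i : Fin 2) :
    y i ∈ riemannRochSpace (d.lam n m i) := by
  obtain ⟨G, l, hG, hred, hord⟩ := exists_section_of_mem hn d hδ hy
  have hmem : (fun i => y i ^ n * d.p i) ∈ B.fibreSections (max l m₀) :=
    ⟨G, riemannRochSpace_mono (B.cuspDiv_mono (le_max_left _ _)) hG, hred⟩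
  have hreg := ((hS.mem_iff _ (le_max_right _ _) _).mp hmem).1 i
  rw [mem_riemannRochSpace_iff]
  intro v
  rcases eq_or_ne (y i) 0 with h0 | h0
  · exact Or.inl h0
  refine Or.inr ?_
  have hne : y i ^ n * d.p i ≠ 0 := mul_ne_zero (pow_ne_zero _ h0) (d.p_ne i)
  have e : v.ord (y i ^ n * d.p i) = n * v.ord (y i) + v.ord (d.p i) := by
    rw [v.ord_mul (pow_ne_zero _ h0) (d.p_ne i), FLTA.Curves.ord_pow]
  have hn' : (0 : ℤ) < n := by exact_mod_cast hn
  rw [ScaledRed.lam, Finsupp.add_apply, Finsupp.mapRange_apply, neg_le]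
  rcases eq_or_ne v B.infk with rfl | hv
  · rw [Finsupp.single_eq_same, d.wDiv_infk, ← sub_le_iff_le_add,
      Int.le_ediv_iff_mul_le hn']
    have h1 := order_le_order_redSeries (A := A) (π := π) (x := B.e i G) (by
      rw [← hred.2 i]
      exact (map_ne_zero B.exk).mpr hne)
    rw [← hred.2 i, ← B.ord_infk _ hne, e] at h1
    have h2 := hord i h0
    have h3 : (-B.infk.ord (y i) - (m : ℤ)) * n =
        -((n : ℤ) * B.infk.ord (y i)) - n * (m : ℤ) := by ring
    rw [h3]
    omega
  · rw [Finsupp.single_eq_of_ne hv, add_zero, d.wDiv_of_ne i hv, Int.le_ediv_iff_mul_le hn']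
    have h1 := (mem_riemannRochSpace_iff.mp hreg v).resolve_left hne
    rw [Finsupp.single_eq_of_ne hv, neg_zero, e] at h1
    rw [neg_mul, mul_comm]
    omega

variable (B) in
/-- A function of exact order `lam i` at the point of the component `i` over `Q`. -/
def ScaledRed.unif (d : B.ScaledRed f) (n m : ℕ) (i : Fin 2) (Q : Place k Fk) : Fk :=
  (exists_ord_eq (B.nodePt i Q) (d.lam n m i (B.nodePt i Q))).choose

omit [IsAlgClosed K] [CharZero K] [IsAlgClosed k] [Fact q.Prime] [CharP k q] in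
theorem ScaledRed.unif_spec (d : B.ScaledRed f) (m : ℕ) (i : Fin 2) (Q : Place k Fk) :
    ScaledRed.unif B d n m i Q ≠ 0 ∧
      (B.nodePt i Q).ord (ScaledRed.unif B d n m i Q) = d.lam n m i (B.nodePt i Q) :=
  (exists_ord_eq (B.nodePt i Q) (d.lam n m i (B.nodePt i Q))).choose_spec

variable (B) in
/-- The leading value at a node of a reduced section. -/
def ScaledRed.lead (d : B.ScaledRed f) (n m : ℕ) (i : Fin 2) (Q : Place k Fk) (y : Fin 2 → Fk) :
    k :=
  placeVal (B.nodePt i Q) (y i * ScaledRed.unif B d n m i Q)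

/-- The values of a reduced section at a glued pair. -/
theorem lead_relation (hS : B.IsGluing S m₀) (hn : 0 < n)
    (d : B.ScaledRed f) {δ : Fin 2 → K} (hδ : ∀ i, δ i ^ n * d.c i = 1) {m : ℕ}
    {Q : Place k Fk} (hQ : Q ∈ S) :
    ∃ β : Fin 2 → k, (∀ i, β i ≠ 0 ↔ Q ∈ d.good n S i) ∧
      ∀ y ∈ B.redSpace δ (B.rootDiv n f m),
        ScaledRed.lead B d n m 0 Q y ^ n * β 0 = ScaledRed.lead B d n m 1 Q y ^ n * β 1 := by
  have hlam : ∀ i, d.lam n m i (B.nodePt i Q) = (B.nodePt i Q).ord (d.p i) / (n : ℤ) := fun i => by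
    rw [ScaledRed.lam, Finsupp.add_apply, Finsupp.mapRange_apply,
      Finsupp.single_eq_of_ne (hS.nodePt_ne i hQ), add_zero, d.wDiv_of_ne i (hS.nodePt_ne i hQ)]
  have hu := fun i => ScaledRed.unif_spec (n := n) d m i Q
  have hw0 : ∀ i, d.p i / ScaledRed.unif B d n m i Q ^ n ≠ 0 := fun i =>
    div_ne_zero (d.p_ne i) (pow_ne_zero _ (hu i).1)
  have hword : ∀ i, (B.nodePt i Q).ord (d.p i / ScaledRed.unif B d n m i Q ^ n) =
      (B.nodePt i Q).ord (d.p i) % (n : ℤ) := fun i => by
    rw [div_eq_mul_inv, Place.ord_mul _ (d.p_ne i) (inv_ne_zero (pow_ne_zero _ (hu i).1)),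
      Place.ord_inv, FLTA.Curves.ord_pow, (hu i).2, hlam, Int.emod_def]
    ring
  have hn' : (n : ℤ) ≠ 0 := Int.natCast_ne_zero.mpr hn.ne'
  have hwmem : ∀ i, d.p i / ScaledRed.unif B d n m i Q ^ n ∈
      (B.nodePt i Q).toValuationSubring := fun i => by
    rw [mem_iff_ord_nonneg _ (hw0 i), hword]
    exact Int.emod_nonneg _ hn'
  refine ⟨fun i => placeVal (B.nodePt i Q) (d.p i / ScaledRed.unif B d n m i Q ^ n),
    fun i => ?_, fun y hy => ?_⟩
  · rw [Ne, placeVal_eq_zero_iff (B.rrk.deg_eq_one _) (hwmem i), or_iff_right (hw0 i), hword,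
      ScaledRed.mem_good, and_iff_right hQ, Int.dvd_iff_emod_eq_zero, not_lt]
    exact ⟨fun h => le_antisymm h (Int.emod_nonneg _ hn'), fun h => h.le⟩
  · obtain ⟨G, l, hG, hred, -⟩ := exists_section_of_mem hn d hδ hy
    have hmem : (fun i => y i ^ n * d.p i) ∈ B.fibreSections (max l m₀) :=
      ⟨G, riemannRochSpace_mono (B.cuspDiv_mono (le_max_left _ _)) hG, hred⟩
    have hglue := ((hS.mem_iff _ (le_max_right _ _) _).mp hmem).2 Q hQ
    have key : ∀ i, placeVal (B.nodePt i Q) (y i ^ n * d.p i) =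
        ScaledRed.lead B d n m i Q y ^ n *
          placeVal (B.nodePt i Q) (d.p i / ScaledRed.unif B d n m i Q ^ n) := fun i => by
      have hyu : y i * ScaledRed.unif B d n m i Q ∈ (B.nodePt i Q).toValuationSubring := by
        rcases eq_or_ne (y i) 0 with h0 | h0
        · rw [h0, zero_mul]; exact zero_mem _
        rw [mem_iff_ord_nonneg _ (mul_ne_zero h0 (hu i).1), Place.ord_mul _ h0 (hu i).1, (hu i).2]
        have := (mem_riemannRochSpace_iff.mp (mem_lam hS hn d hδ hy i)
          (B.nodePt i Q)).resolve_left h0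
        omega
      have e : y i ^ n * d.p i = (y i * ScaledRed.unif B d n m i Q) ^ n *
          (d.p i / ScaledRed.unif B d n m i Q ^ n) := by
        rw [mul_pow, mul_assoc, mul_div_cancel₀ _ (pow_ne_zero _ (hu i).1)]
      rw [e, placeVal_mul (B.rrk.deg_eq_one _) (pow_mem hyu n) (hwmem i),
        placeVal_pow (B.rrk.deg_eq_one _) hyu]
      rfl
    rw [← key 0, ← key 1]
    exact hglue

/-- Sections vanishing at the good nodes. -/
theorem mem_lam_sub (hS : B.IsGluing S m₀) (hn : 0 < n)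
    (d : B.ScaledRed f) {δ : Fin 2 → K} (hδ : ∀ i, δ i ^ n * d.c i = 1) {m : ℕ}
    {y : Fin 2 → Fk} (hy : y ∈ B.redSpace δ (B.rootDiv n f m)) (i : Fin 2)
    (h0 : ∀ Q ∈ d.good n S i, ScaledRed.lead B d n m i Q y = 0) :
    y i ∈ riemannRochSpace
      (d.lam n m i - ∑ Q ∈ d.good n S i, Finsupp.single (B.nodePt i Q) (1 : ℤ)) := by
  classical
  rw [mem_riemannRochSpace_iff]
  intro v
  rcases eq_or_ne (y i) 0 with hz | hz
  · exact Or.inl hz
  refine Or.inr ?_
  have hv := (mem_riemannRochSpace_iff.mp (mem_lam hS hn d hδ hy i) v).resolve_left hz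
  rw [Finsupp.sub_apply, Finsupp.finsetSum_apply]
  by_cases hx : ∃ Q ∈ d.good n S i, B.nodePt i Q = v
  · obtain ⟨Q, hQ, rfl⟩ := hx
    rw [Finset.sum_eq_single_of_mem Q hQ fun R _ hR =>
      Finsupp.single_eq_of_ne fun h => hR (B.nodePt_injective i h).symm, Finsupp.single_eq_same]
    have hu := ScaledRed.unif_spec (n := n) d m i Q
    have hmem : y i * ScaledRed.unif B d n m i Q ∈ (B.nodePt i Q).toValuationSubring := by
      rw [mem_iff_ord_nonneg _ (mul_ne_zero hz hu.1), Place.ord_mul _ hz hu.1, hu.2]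
      omega
    have h1 := h0 Q hQ
    rw [ScaledRed.lead, placeVal_eq_zero_iff (B.rrk.deg_eq_one _) hmem,
      or_iff_right (mul_ne_zero hz hu.1), Place.ord_mul _ hz hu.1, hu.2] at h1
    omega
  · rw [Finset.sum_eq_zero fun R hR => Finsupp.single_eq_of_ne fun h => hx ⟨R, hR, h.symm⟩]
    simpa using hv

omit [IsAlgClosed K] [CharZero K] [IsAlgClosed k] [Fact q.Prime] [CharP k q] in
theorem degree_lam_sub (d : B.ScaledRed f) (hn : 0 < n) (m : ℕ) (i : Fin 2) :
    (n : ℤ) * Divisor.degree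
        (d.lam n m i - ∑ Q ∈ d.good n S i, Finsupp.single (B.nodePt i Q) (1 : ℤ)) =
      -(B.P i).ord f - Divisor.degree (d.rem n i) + n * m - n * (d.good n S i).card := by
  have e : d.wDiv i = (n : ℤ) • (d.wDiv i).mapRange (fun x => x / (n : ℤ)) (Int.zero_ediv _) +
      d.rem n i := by
    ext v
    simp only [Finsupp.add_apply, Finsupp.smul_apply, smul_eq_mul, Finsupp.mapRange_apply,
      ScaledRed.rem]
    exact (Int.mul_ediv_add_emod _ _).symm
  have h := congrArg Divisor.degree e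
  rw [d.degree_wDiv, map_add, map_zsmul, smul_eq_mul] at h
  rw [ScaledRed.lam, map_sub, map_add, B.rrk.degree_single_eq, map_sum]
  simp only [B.rrk.degree_single_eq, Finset.sum_const, nsmul_eq_mul, mul_one]
  rw [mul_sub, mul_add]
  omega

/-- **The count.**  `T` contains the good nodes at which sections need not vanish. -/
theorem count_le (hS : B.IsGluing S m₀) (hn : 0 < n)
    (d : B.ScaledRed f) {δ : Fin 2 → K} (hδ : ∀ i, δ i ^ n * d.c i = 1)
    (T : Finset (Place k Fk))
    (hT : ∀ (m : ℕ), ∀ y ∈ B.redSpace δ (B.rootDiv n f m), ∀ Q ∈ d.good n S 0,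
      Q ∈ d.good n S 1 → Q ∉ T → ScaledRed.lead B d n m 0 Q y = 0) :
    Divisor.degree (d.rem n 0) + Divisor.degree (d.rem n 1) +
      n * ((d.good n S 0).card + (d.good n S 1).card) ≤
      n * (S.card + T.card : ℤ) + B.defect n f := by
  classical
  have hq : 2 ≤ q := (Fact.out : q.Prime).two_le
  -- a large `m`
  set m : ℕ := 2 * g + gF + S.card + ((B.P 0).ord f).natAbs + ((B.P 1).ord f).natAbs +
    (Divisor.degree (d.rem n 0)).natAbs + (Divisor.degree (d.rem n 1)).natAbs +
    (B.defect n f).natAbs with hm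
  set E := B.rootDiv n f m
  have hδ0 : ∀ i, δ i ≠ 0 := fun i h => by
    have := hδ i
    rw [h, zero_pow hn.ne', zero_mul] at this
    exact zero_ne_one this
  obtain ⟨hfin, hdim⟩ := finrank_redSpace (B := B) hδ0 E
  have hdegE := degree_rootDiv (B := B) hq n f m
  set D : Fin 2 → Divisor k Fk := fun i =>
    d.lam n m i - ∑ Q ∈ d.good n S i, Finsupp.single (B.nodePt i Q) (1 : ℤ) with hD
  have hdegD : ∀ i, (n : ℤ) * Divisor.degree (D i) =
      -(B.P i).ord f - Divisor.degree (d.rem n i) + n * m - n * (d.good n S i).card :=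
    fun i => degree_lam_sub d hn m i
  have hn' : (0 : ℤ) < n := by exact_mod_cast hn
  have hcard : ∀ i, (d.good n S i).card ≤ S.card := fun i => Finset.card_filter_le _ _
  -- the values at `T`
  let Φ : B.redSpace δ E →ₗ[k] (T → k) :=
    { toFun := fun y Q => if (Q : Place k Fk) ∈ d.good n S 0 then
        ScaledRed.lead B d n m 0 Q y.1 else 0
      map_add' := fun y z => funext fun Q => by
        simp only [Pi.add_apply]
        split_ifs with hQ
        · have hu := ScaledRed.unif_spec (n := n) d m 0 (Q : Place k Fk)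
          have hmem : ∀ w ∈ B.redSpace δ E, w 0 * ScaledRed.unif B d n m 0 Q ∈
              (B.nodePt 0 Q).toValuationSubring := fun w hw => by
            rcases eq_or_ne (w 0) 0 with h0 | h0
            · rw [h0, zero_mul]; exact zero_mem _
            rw [mem_iff_ord_nonneg _ (mul_ne_zero h0 hu.1), Place.ord_mul _ h0 hu.1, hu.2]
            have := (mem_riemannRochSpace_iff.mp (mem_lam hS hn d hδ hw 0)
              (B.nodePt 0 Q)).resolve_left h0
            omega
          simp only [ScaledRed.lead, Submodule.coe_add, Pi.add_apply, add_mul]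
          exact placeVal_add (B.rrk.deg_eq_one _) (hmem _ y.2) (hmem _ z.2)
        · simp
      map_smul' := fun c y => funext fun Q => by
        simp only [RingHom.id_apply, Pi.smul_apply, smul_eq_mul]
        split_ifs with hQ
        · have hu := ScaledRed.unif_spec (n := n) d m 0 (Q : Place k Fk)
          have hmem : y.1 0 * ScaledRed.unif B d n m 0 Q ∈
              (B.nodePt 0 Q).toValuationSubring := by
            rcases eq_or_ne (y.1 0) 0 with h0 | h0
            · rw [h0, zero_mul]; exact zero_mem _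
            rw [mem_iff_ord_nonneg _ (mul_ne_zero h0 hu.1), Place.ord_mul _ h0 hu.1, hu.2]
            have := (mem_riemannRochSpace_iff.mp (mem_lam hS hn d hδ y.2 0)
              (B.nodePt 0 Q)).resolve_left h0
            omega
          simp only [ScaledRed.lead, Submodule.coe_smul, Pi.smul_apply, smul_mul_assoc]
          exact placeVal_smul (B.rrk.deg_eq_one _) c hmem
        · simp }
  have hker : ∀ y : LinearMap.ker Φ, ∀ i, ∀ Q ∈ d.good n S i,
      ScaledRed.lead B d n m i Q y.1.1 = 0 := by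
    intro y
    have hy0 : ∀ Q ∈ d.good n S 0, Q ∈ d.good n S 1 → ScaledRed.lead B d n m 0 Q y.1.1 = 0 := by
      intro Q hQ hQ1
      by_cases hQT : Q ∈ T
      · have := congrFun (LinearMap.mem_ker.mp y.2) ⟨Q, hQT⟩
        exact (if_pos hQ).symm.trans this
      · exact hT m _ y.1.2 Q hQ hQ1 hQT
    refine Fin.forall_fin_two.mpr ⟨fun Q hQ => ?_, fun Q hQ => ?_⟩ <;>
      obtain ⟨β, hβ, hrel⟩ :=
        lead_relation hS hn d hδ (m := m) (ScaledRed.mem_good.mp hQ).1 <;>
      have h := hrel _ y.1.2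
    · by_cases hQ1 : Q ∈ d.good n S 1
      · exact hy0 Q hQ hQ1
      · rw [not_not.mp (mt (hβ 1).mp hQ1), mul_zero, mul_eq_zero, pow_eq_zero_iff hn.ne'] at h
        exact h.resolve_right ((hβ 0).mpr hQ)
    · have h' : ScaledRed.lead B d n m 0 Q y.1.1 ^ n * β 0 = 0 := by
        by_cases hQ0 : Q ∈ d.good n S 0
        · rw [hy0 Q hQ0 hQ, zero_pow hn.ne', zero_mul]
        · rw [not_not.mp (mt (hβ 0).mp hQ0), mul_zero]
      rw [h', eq_comm, mul_eq_zero, pow_eq_zero_iff hn.ne'] at h
      exact h.resolve_right ((hβ 1).mpr hQ)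
  let Ψ : LinearMap.ker Φ →ₗ[k] riemannRochSpace (D 0) × riemannRochSpace (D 1) :=
    LinearMap.prod
      (LinearMap.codRestrict _ ((LinearMap.proj 0).comp
        ((B.redSpace δ E).subtype.comp (LinearMap.ker Φ).subtype))
        fun y => mem_lam_sub hS hn d hδ y.1.2 0 (hker y 0))
      (LinearMap.codRestrict _ ((LinearMap.proj 1).comp
        ((B.redSpace δ E).subtype.comp (LinearMap.ker Φ).subtype))
        fun y => mem_lam_sub hS hn d hδ y.1.2 1 (hker y 1))
  have hΨ : Function.Injective Ψ := fun y z h => Subtype.ext (Subtype.ext (funext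
    (Fin.forall_fin_two.mpr ⟨congrArg (fun x => (x.1 : Fk)) h, congrArg (fun x => (x.2 : Fk)) h⟩)))
  have := B.rrk.finiteDimensional (D 0)
  have := B.rrk.finiteDimensional (D 1)
  have hk1 := LinearMap.finrank_le_finrank_of_injective hΨ
  rw [Module.finrank_prod] at hk1
  have hk2 := Φ.finrank_range_add_finrank_ker
  have hk3 : Module.finrank k (LinearMap.range Φ) ≤ T.card := by
    simpa using Submodule.finrank_le (LinearMap.range Φ)
  -- Riemann-Roch
  have hbig : ∀ i, 2 * (g : ℤ) - 1 ≤ Divisor.degree (D i) := fun i => by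
    refine le_of_mul_le_mul_left ?_ hn'
    rw [hdegD]
    have h1 : (m : ℤ) ≥ 2 * g + S.card + ((B.P i).ord f).natAbs +
        (Divisor.degree (d.rem n i)).natAbs := by
      revert i
      exact Fin.forall_fin_two.mpr ⟨by rw [hm]; simp only [Nat.cast_add, Nat.cast_mul, Nat.cast_ofNat]; omega, by rw [hm]; simp only [Nat.cast_add, Nat.cast_mul, Nat.cast_ofNat]; omega⟩
    have h2 := mul_le_mul_of_nonneg_left h1 hn'.le
    have h3 : (B.P i).ord f + Divisor.degree (d.rem n i) ≤
        (n : ℤ) * (((B.P i).ord f).natAbs + (Divisor.degree (d.rem n i)).natAbs : ℤ) :=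
      le_trans (by omega) (le_mul_of_one_le_left (by positivity) (by exact_mod_cast hn))
    have h4 := mul_le_mul_of_nonneg_left (Int.ofNat_le.mpr (hcard i)) hn'.le
    simp only [mul_add, mul_sub, mul_one] at h2 h3 ⊢
    omega
  have hRk0 := B.rrk.finrank_eq (D 0) (hbig 0)
  have hRk1 := B.rrk.finrank_eq (D 1) (hbig 1)
  have hbigE : 2 * (gF : ℤ) - 1 ≤ Divisor.degree E := by
    refine le_of_mul_le_mul_left ?_ hn'
    rw [hdegE]
    have h1 : (m : ℤ) ≥ gF + ((B.P 0).ord f).natAbs + ((B.P 1).ord f).natAbs +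
        (B.defect n f).natAbs := by
      rw [hm]; simp only [Nat.cast_add, Nat.cast_mul, Nat.cast_ofNat]; omega
    have h2 := mul_le_mul_of_nonneg_left h1 hn'.le
    have h3 : (B.P 0).ord f + (B.P 1).ord f + B.defect n f ≤
        (n : ℤ) * (((B.P 0).ord f).natAbs + ((B.P 1).ord f).natAbs + (B.defect n f).natAbs : ℤ) :=
      le_trans (by omega) (le_mul_of_one_le_left (by positivity) (by exact_mod_cast hn))
    have h4 : (n : ℤ) * m ≥ 0 := by positivity
    have h5 : 0 ≤ (n : ℤ) * (((B.P 0).ord f).natAbs + ((B.P 1).ord f).natAbs +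
        (B.defect n f).natAbs : ℤ) := by positivity
    simp only [mul_add, mul_sub, mul_one] at h2 h3 h5 ⊢
    rw [show (n : ℤ) * (2 * (gF : ℤ)) = 2 * ((n : ℤ) * gF) by ring,
      show 2 * (n : ℤ) * m = 2 * ((n : ℤ) * m) by ring]
    omega
  have hRF := B.rrF.finrank_eq E hbigE
  have hineq : (Module.finrank k (B.redSpace δ E) : ℤ) ≤
      T.card + ((Module.finrank k (riemannRochSpace (D 0)) : ℤ) +
        Module.finrank k (riemannRochSpace (D 1))) := by
    exact_mod_cast (by omega : Module.finrank k (B.redSpace δ E) ≤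
      T.card + (Module.finrank k (riemannRochSpace (D 0)) +
        Module.finrank k (riemannRochSpace (D 1))))
  rw [hdim, hRF, hRk0, hRk1] at hineq
  have h := mul_le_mul_of_nonneg_left hineq hn'.le
  rw [mul_sub, mul_add, hdegE, mul_add (n : ℤ) (T.card : ℤ), mul_add (n : ℤ), mul_sub (n : ℤ),
    mul_sub (n : ℤ), mul_add, mul_add, hdegD, hdegD] at h
  have hs : (n : ℤ) * S.card + n * (2 * g) = n * gF + n := by
    have h := congrArg ((n : ℤ) * ·) hS.card_eq
    simpa [mul_add] using h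
  rw [mul_add, mul_add]
  linarith

omit [IsAlgClosed K] [CharZero K] [IsAlgClosed k] [Fact q.Prime] [CharP k q] in
/-- The remainders of `W` and `-W` fill the points where `n ∤ W`. -/
theorem card_le_degree_rem (d : B.ScaledRed f) (hn : 0 < n) (i : Fin 2)
    (U : Finset (Place k Fk)) (hU : ∀ v ∈ U, ¬ (n : ℤ) ∣ d.wDiv i v) :
    (n : ℤ) * U.card ≤ Divisor.degree (d.rem n i) + Divisor.degree (d.inv.rem n i) := by
  classical
  have hn' : (0 : ℤ) < n := by exact_mod_cast hn
  have h := B.rrk.degree_mono (D := ∑ v ∈ U, Finsupp.single v (n : ℤ))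
    (E := d.rem n i + d.inv.rem n i) (Finsupp.le_def.mpr fun v => by
      simp only [Finsupp.finsetSum_apply, Finsupp.single_apply, Finset.sum_ite_eq', Finsupp.add_apply,
        ScaledRed.rem, Finsupp.mapRange_apply, d.wDiv_inv, Finsupp.neg_apply]
      have h1 := Int.emod_nonneg (d.wDiv i v) hn'.ne'
      have h2 := Int.emod_nonneg (-d.wDiv i v) hn'.ne'
      split_ifs with hv
      · have h3 : (n : ℤ) ∣ d.wDiv i v % n + (-d.wDiv i v) % n := by
          rw [Int.dvd_iff_emod_eq_zero, ← Int.add_emod, add_neg_cancel, Int.zero_emod]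
        have h4 : 0 < d.wDiv i v % n :=
          lt_of_le_of_ne h1 fun h0 => hU v hv (Int.dvd_of_emod_eq_zero h0.symm)
        exact Int.le_of_dvd (by omega) h3
      · omega)
  rw [map_add, map_sum] at h
  simp only [B.rrk.degree_single_eq, Finset.sum_const, nsmul_eq_mul] at h
  rw [mul_comm]
  exact h

theorem exists_scalars {n : ℕ} (hn : 0 < n) (d : B.ScaledRed f) :
    ∃ δ : Fin 2 → K, ∀ i, δ i ^ n * d.c i = 1 := by
  choose δ hδ using fun i => IsAlgClosed.exists_pow_nat_eq (d.c i)⁻¹ hn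
  exact ⟨δ, fun i => by rw [hδ, inv_mul_cancel₀ (d.c_ne i)]⟩

/-- **Nodes and the other points.** -/
theorem good_zero_eq_good_one (hS : B.IsGluing S m₀) (hn : 0 < n) (hdvd : B.DvdOffCusps n f)
    (d : B.ScaledRed f) :
    d.good n S 0 = d.good n S 1 ∧
      ∀ i, ∀ v : Place k Fk, (∀ Q ∈ S, B.nodePt i Q ≠ v) → (n : ℤ) ∣ d.wDiv i v := by
  classical
  obtain ⟨δ, hδ⟩ := exists_scalars hn d
  have hδ' : ∀ i, (δ i)⁻¹ ^ n * d.inv.c i = 1 := fun i => by
    rw [inv_pow, show d.inv.c i = (d.c i)⁻¹ from rfl, ← mul_inv, hδ, inv_one]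
  set T := d.good n S 0 ∩ d.good n S 1
  have h1 := count_le hS hn d hδ T
    fun m y _ Q h0 h1 hQ => absurd (Finset.mem_inter.mpr ⟨h0, h1⟩) hQ
  have h2 := count_le hS hn d.inv hδ' T (fun m y _ Q h0 h1 hQ => absurd
    (Finset.mem_inter.mpr ⟨d.good_inv n 0 ▸ h0, d.good_inv n 1 ▸ h1⟩) hQ)
  rw [defect_eq_zero hdvd, add_zero] at h1
  rw [defect_eq_zero hdvd.inv, add_zero] at h2
  rw [d.good_inv, d.good_inv] at h2
  have hn' : (0 : ℤ) < n := by exact_mod_cast hn
  set b : Fin 2 → Finset (Place k Fk) :=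
    fun i => (S \ d.good n S i).image (B.nodePt i) with hb
  have hbmem : ∀ i, ∀ v ∈ b i, ¬ (n : ℤ) ∣ d.wDiv i v := fun i v hv => by
    obtain ⟨Q, hQ, rfl⟩ := Finset.mem_image.mp hv
    obtain ⟨hQS, hQg⟩ := Finset.mem_sdiff.mp hQ
    rw [d.wDiv_of_ne i (hS.nodePt_ne i hQS)]
    exact fun h => hQg (ScaledRed.mem_good.mpr ⟨hQS, h⟩)
  have hbcard : ∀ i, ((b i).card : ℤ) = S.card - (d.good n S i).card := fun i => by
    rw [hb, Finset.card_image_of_injective _ (B.nodePt_injective i),
      Finset.card_sdiff_of_subset (show d.good n S i ⊆ S from Finset.filter_subset _ _),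
      Nat.cast_sub (Finset.card_le_card (show d.good n S i ⊆ S from Finset.filter_subset _ _))]
  have hc0 := card_le_degree_rem d hn 0 (b 0) (hbmem 0)
  have hc1 := card_le_degree_rem d hn 1 (b 1) (hbmem 1)
  rw [hbcard, mul_sub] at hc0 hc1
  have hT0 : (T.card : ℤ) ≤ (d.good n S 0).card :=
    Int.ofNat_le.mpr (Finset.card_le_card Finset.inter_subset_left)
  have hT1 : (T.card : ℤ) ≤ (d.good n S 1).card :=
    Int.ofNat_le.mpr (Finset.card_le_card Finset.inter_subset_right)
  have hk0 := mul_le_mul_of_nonneg_left hT0 hn'.le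
  have hk1 := mul_le_mul_of_nonneg_left hT1 hn'.le
  rw [mul_add, mul_add] at h1 h2
  refine ⟨?_, fun i v hv => ?_⟩
  · have e0 : T.card = (d.good n S 0).card := by
      have : (n : ℤ) * T.card = n * (d.good n S 0).card := by linarith
      exact_mod_cast mul_left_cancel₀ hn'.ne' this
    have e1 : T.card = (d.good n S 1).card := by
      have : (n : ℤ) * T.card = n * (d.good n S 1).card := by linarith
      exact_mod_cast mul_left_cancel₀ hn'.ne' this
    rw [← Finset.eq_of_subset_of_card_le Finset.inter_subset_left e0.ge,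
      Finset.eq_of_subset_of_card_le Finset.inter_subset_right e1.ge]
  · by_contra hdv
    have hvb : v ∉ b i := fun h => by
      obtain ⟨Q, hQ, hQv⟩ := Finset.mem_image.mp h
      exact hv Q (Finset.mem_sdiff.mp hQ).1 hQv
    have hc := card_le_degree_rem d hn i (insert v (b i)) fun w hw => by
      rcases Finset.mem_insert.mp hw with rfl | hw
      · exact hdv
      · exact hbmem i w hw
    rw [Finset.card_insert_of_notMem hvb, Nat.cast_add, Nat.cast_one, mul_add, mul_one, hbcard,
      mul_sub] at hc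
    clear hv hdv hvb
    revert hc
    revert i
    exact Fin.forall_fin_two.mpr ⟨fun hc => by linarith, fun hc => by linarith⟩

omit [IsAlgClosed K] in
/-- Distinct `n`-th roots of unity have distinct reductions. -/
theorem residue_rootOfUnity_ne_one (hn : (n : k) ≠ 0) {ω : A} (hω : (ω : K) ^ n = 1)
    (hne : (ω : K) ≠ 1) : π ω ≠ 1 := by
  intro h1
  have hsum : ∑ i ∈ Finset.range n, ω ^ i = 0 := by
    have h := geom_sum_mul ω n
    rw [show ω ^ n = 1 from Subtype.ext (by push_cast; exact hω), sub_self, mul_eq_zero] at h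
    exact h.resolve_right (sub_ne_zero.mpr fun e => hne (by rw [e]; rfl))
  apply hn
  have h := congrArg π hsum
  simpa [map_sum, map_pow, h1] using h

/-- **Splitting.**  If some node is good, inertia fixes the root of the ratio of the scalings. -/
theorem ratio_fixed_of_good {J : B.InertiaSys} (hS : B.IsGluing S m₀) (hnk : (n : k) ≠ 0)
    (C : Finset (Place K F))
    (hC : ∀ v : Place K F, v ≠ B.P 0 → v ≠ B.P 1 → v ∉ C → (n : ℤ) ∣ v.ord f)
    (hfix : J.Fixed f) (d : B.ScaledRed f) (U : Fin 2 → Finset (Place k Fk))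
    (hU : ∀ i, ∀ u ∈ U i, ¬ (n : ℤ) ∣ d.wDiv i u ∧ ∀ Q ∈ S, B.nodePt i Q ≠ u)
    (hCU : C.card ≤ (U 0).card + (U 1).card)
    (hc : ∀ i, ∀ s ∈ J.I, SemilinearAut.baseAut s.σ (d.c i) = d.c i)
    {δ : Fin 2 → K} (hδ : ∀ i, δ i ^ n * d.c i = 1) (hgood : (d.good n S 0).Nonempty)
    {s : B.Sym} (hs : s ∈ J.I) :
    SemilinearAut.baseAut s.σ (δ 0 / δ 1) = δ 0 / δ 1 := by
  classical
  have hn : 0 < n := Nat.pos_of_ne_zero fun h => hnk (by rw [h, Nat.cast_zero])
  by_contra hne
  -- the lattice of sections splits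
  have key : ∀ (f' : F) (_ : J.Fixed f') (d' : B.ScaledRed f')
      (_ : ∀ i, ∀ t ∈ J.I, SemilinearAut.baseAut t.σ (d'.c i) = d'.c i) (δ' : Fin 2 → K)
      (_ : ∀ i, δ' i ^ n * d'.c i = 1)
      (_ : SemilinearAut.baseAut s.σ (δ' 0 / δ' 1) ≠ δ' 0 / δ' 1),
      ∀ (m : ℕ), ∀ y ∈ B.redSpace δ' (B.rootDiv n f' m), ∀ Q ∈ d'.good n S 0,
        Q ∈ d'.good n S 1 → Q ∉ (∅ : Finset (Place k Fk)) →
        ScaledRed.lead B d' n m 0 Q y = 0 := by
    intro f' hfix' d' hc' δ' hδ' hne' m y hy Q hQ0 hQ1 _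
    set b := SemilinearAut.baseAut s.σ
    have hδ0 : ∀ i, δ' i ≠ 0 := fun i h => by
      have := hδ' i
      rw [h, zero_pow hn.ne', zero_mul] at this
      exact zero_ne_one this
    set ω : Fin 2 → K := fun i => b (δ' i) / δ' i with hω
    have hωn : ∀ i, ω i ^ n = 1 := fun i => by
      have h1 := congrArg b (hδ' i)
      rw [map_mul, map_pow, hc' i s hs, map_one] at h1
      rw [hω, div_pow, eq_inv_of_mul_eq_one_left h1, eq_inv_of_mul_eq_one_left (hδ' i),
        div_self (inv_ne_zero (d'.c_ne i))]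
    have hω0 : ∀ i, ω i ≠ 0 := fun i => div_ne_zero ((map_ne_zero b).mpr (hδ0 i)) (hδ0 i)
    have hωA : ∀ i, (ω i)⁻¹ ∈ A := fun i =>
      mem_of_pow_mem hn (by rw [inv_pow, hωn, inv_one]; exact A.one_mem)
    have hstab : ∀ i₀ : K, i₀ = i₀ → (fun i => π ⟨_, hωA i⟩ • y i) ∈
        B.redSpace δ' (B.rootDiv n f' m) := fun _ _ => by
      obtain ⟨G, hG, hGy⟩ := hy
      refine ⟨s.σ • G, ?_, fun i => ?_⟩
      · have h2 := Ramified.smul_mem_rrSpace s.σ hG
        have hE : s.σ • B.rootDiv n f' m = B.rootDiv n f' m := by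
          ext v
          rw [SemilinearAut.divisor_smul_apply]
          have hord : (s.σ⁻¹ • v).ord f' = v.ord f' := by
            have h := SemilinearAut.ord_smul s.σ (s.σ⁻¹ • v) f'
            rw [smul_inv_smul, hfix' s hs] at h
            exact h.symm
          have hP : ∀ j, s.σ⁻¹ • v = B.P j ↔ v = B.P j := fun j => by
            rw [inv_smul_eq_iff, B.smul_P]
          have hq : 2 ≤ q := (Fact.out : q.Prime).two_le
          by_cases h0 : v = B.P 0
          · rw [(hP 0).mpr h0, h0]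
          by_cases h1 : v = B.P 1
          · rw [(hP 1).mpr h1, h1]
          rw [rootDiv_of_ne _ _ _ (mt (hP 0).mp h0) (mt (hP 1).mp h1),
            rootDiv_of_ne _ _ _ h0 h1, hord]
        rwa [hE] at h2
      · have h1 := ((hGy i).sym s).smul ⟨_, hωA i⟩
        rw [B.inertia_smul_fk s (J.isInertia s hs), semilinear_smul_smul, smul_smul] at h1
        convert h1 using 2
        show δ' i = (b (δ' i) / δ' i)⁻¹ * b (δ' i)
        rw [inv_div, div_mul_cancel₀ _ ((map_ne_zero b).mpr (hδ0 i))]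
    set w : Fin 2 → k := fun i => π ⟨_, hωA i⟩
    have hw : w 0 ≠ w 1 := by
      intro he
      have hωne : ω 0 ≠ ω 1 := fun h => hne' (by
        have h' : b (δ' 0) / δ' 0 = b (δ' 1) / δ' 1 := h
        rw [div_eq_div_iff (hδ0 0) (hδ0 1)] at h'
        rw [map_div₀, div_eq_div_iff ((map_ne_zero b).mpr (hδ0 1)) (hδ0 1), h', mul_comm])
      have hmem : ω 1 / ω 0 ∈ A := mem_of_pow_mem hn (by
        rw [div_pow, hωn, hωn, div_one]; exact A.one_mem)
      refine residue_rootOfUnity_ne_one (π := π) hnk (ω := ⟨_, hmem⟩)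
        (by rw [div_pow, hωn, hωn, div_one]) (fun h => hωne ((div_eq_one_iff_eq (hω0 0)).mp h).symm) ?_
      have h2 : π ⟨_, hmem⟩ * w 1 = w 0 := by
        rw [← map_mul]
        congr 1
        exact Subtype.ext (show ω 1 / ω 0 * (ω 1)⁻¹ = (ω 0)⁻¹ by field_simp [hω0 0, hω0 1])
      have hw1 : w 1 ≠ 0 := fun h0 => by
        have hmem' : ω 1 ∈ A := mem_of_pow_mem hn (by rw [hωn]; exact A.one_mem)
        have h3 : π ⟨_, hmem'⟩ * w 1 = 1 := by
          rw [← map_mul, ← map_one π]
          congr 1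
          exact Subtype.ext (mul_inv_cancel₀ (hω0 1))
        rw [h0, mul_zero] at h3
        exact zero_ne_one h3
      rw [← he] at h2 hw1
      exact (mul_eq_right₀ hw1).mp h2
    have hproj : (fun i => if i = 0 then y 0 else 0) ∈ B.redSpace δ' (B.rootDiv n f' m) := by
      have h3 := Submodule.smul_mem _ (w 0 - w 1)⁻¹
        (Submodule.sub_mem _ (hstab 0 rfl) (Submodule.smul_mem _ (w 1) hy))
      convert h3 using 1
      funext i
      revert i
      refine Fin.forall_fin_two.mpr ⟨?_, ?_⟩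
      · show y 0 = (w 0 - w 1)⁻¹ • (w 0 • y 0 - w 1 • y 0)
        rw [← sub_smul, inv_smul_smul₀ (sub_ne_zero.mpr hw)]
      · show (0 : Fk) = (w 0 - w 1)⁻¹ • (w 1 • y 1 - w 1 • y 1)
        rw [sub_self, smul_zero]
    obtain ⟨β, hβ, hrel⟩ :=
      lead_relation hS hn d' hδ' (m := m) (ScaledRed.mem_good.mp hQ0).1
    have h := hrel _ hproj
    have hz : ScaledRed.lead B d' n m 1 Q (fun i => if i = 0 then y 0 else 0) = 0 := by
      simp [ScaledRed.lead, placeVal_zero (B.rrk.deg_eq_one _)]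
    rw [hz, zero_pow hn.ne', zero_mul, mul_eq_zero, pow_eq_zero_iff hn.ne'] at h
    exact h.resolve_right ((hβ 0).mpr hQ0)
  have hδ' : ∀ i, (δ i)⁻¹ ^ n * d.inv.c i = 1 := fun i => by
    rw [inv_pow, show d.inv.c i = (d.c i)⁻¹ from rfl, ← mul_inv, hδ, inv_one]
  have hfix' : J.Fixed f⁻¹ := fun t ht => by rw [smul_inv'', hfix t ht]
  have hc' : ∀ i, ∀ t ∈ J.I, SemilinearAut.baseAut t.σ (d.inv.c i) = d.inv.c i := fun i t ht => by
    rw [show d.inv.c i = (d.c i)⁻¹ from rfl, map_inv₀, hc i t ht]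
  have h1 := count_le hS hn d hδ ∅ (key f hfix d hc δ hδ hne)
  have h2 := count_le hS hn d.inv hδ' ∅ (key f⁻¹ hfix' d.inv hc' _ hδ' (by
    rw [inv_div_inv, ← inv_div, map_inv₀]
    exact fun h => hne (inv_injective h)))
  rw [d.good_inv, d.good_inv] at h2
  have hcb : ∀ i, (n : ℤ) * (S.card - (d.good n S i).card + (U i).card) ≤
      Divisor.degree (d.rem n i) + Divisor.degree (d.inv.rem n i) := fun i => by
    have hdisj : Disjoint ((S \ d.good n S i).image (B.nodePt i)) (U i) := by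
      rw [Finset.disjoint_left]
      intro v hv hvU
      obtain ⟨Q, hQ, rfl⟩ := Finset.mem_image.mp hv
      exact (hU i _ hvU).2 Q (Finset.mem_sdiff.mp hQ).1 rfl
    have h := card_le_degree_rem d hn i ((S \ d.good n S i).image (B.nodePt i) ∪ U i) fun v hv => by
      rcases Finset.mem_union.mp hv with hv | hv
      · obtain ⟨Q, hQ, rfl⟩ := Finset.mem_image.mp hv
        obtain ⟨hQS, hQg⟩ := Finset.mem_sdiff.mp hQ
        rw [d.wDiv_of_ne i (hS.nodePt_ne i hQS)]
        exact fun h => hQg (ScaledRed.mem_good.mpr ⟨hQS, h⟩)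
      · exact (hU i v hv).1
    rwa [Finset.card_union_of_disjoint hdisj, Finset.card_image_of_injective _ (B.nodePt_injective _),
      Finset.card_sdiff_of_subset (show d.good n S i ⊆ S from Finset.filter_subset _ _),
      Nat.cast_add,
      Nat.cast_sub (Finset.card_le_card (show d.good n S i ⊆ S from Finset.filter_subset _ _))] at h
  have hc0 := hcb 0
  have hc1 := hcb 1
  rw [mul_add, mul_sub] at hc0 hc1
  have hdef := defect_add_inv_le (B := B) hn hC
  have hCU' := mul_le_mul_of_nonneg_left (Int.ofNat_le.mpr hCU) (Int.natCast_nonneg n)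
  rw [Nat.cast_add, mul_add] at hCU'
  rw [mul_add, mul_add, Finset.card_empty, Nat.cast_zero, mul_zero] at h1 h2
  have hpos : (1 : ℤ) ≤ (d.good n S 0).card := Int.ofNat_le.mpr hgood.card_pos
  have hn' : (0 : ℤ) < n := by exact_mod_cast hn
  have := mul_le_mul_of_nonneg_left hpos hn'.le
  have : (0 : ℤ) ≤ n * (d.good n S 1).card := by positivity
  linarith

end Count

end FLTA.BadRed.BadFibre

end
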