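import Fermat.Agent.PlaceRed.DeuringRR
import Fermat.Agent.Curves.RRSpace
import Fermat.Prelude.Def_AlgebraicCurve_BaseChangeGalois
import Fermat.Prelude.Def_ModularCurve_X0
import Fermat.Prelude.Def_ModularCurve_LaurentCoeff
import Mathlib.FieldTheory.Finite.Basic

/-!
# Curves with an expansion at a rational place and semilinear symmetries

`φ` is the expansion at `P`: `ord_P = order ∘ φ`.  Normalising leading coefficients makes
sections and divisors canonical, hence invariant under semilinear automorphisms acting on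
coefficients.
-/

set_option autoImplicit false

noncomputable section

open AlgebraicCurve FLTA.Curves

namespace FLTA.BadRed.Ramified

variable {K F : Type*} [Field K] [Field F] [Algebra K F] {g : ℕ}

/-- Stability of Riemann-Roch spaces under semilinear automorphisms. -/
theorem smul_mem_rrSpace (σ : SemilinearAut K F) {E : Divisor K F} {x : F}
    (hx : x ∈ riemannRochSpace E) : σ • x ∈ riemannRochSpace (σ • E) := by
  rw [mem_riemannRochSpace_iff]
  intro v
  rcases mem_riemannRochSpace_iff.mp hx (σ⁻¹ • v) with h | h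
  · exact Or.inl (by rw [h, smul_zero])
  · right
    have h1 := SemilinearAut.ord_smul σ (σ⁻¹ • v) x
    rw [smul_inv_smul] at h1
    rw [SemilinearAut.divisor_smul_apply, h1]
    exact h

/-- In degree zero a non-zero section has divisor `-D`. -/
theorem ord_eq_of_mem_degree_zero (hC : PlaceRed.RRCurve K F g) {D : Divisor K F}
    (hD : Divisor.degree D = 0) {G : F} (hG : G ∈ riemannRochSpace D) (hG0 : G ≠ 0)
    (v : Place K F) : v.ord G = -D v := by
  have := hC.principal
  obtain ⟨Z, hZ, hZd⟩ := HasPrincipalDivisors.exists_divisor (K := K) G hG0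
  have hle : (0 : Divisor K F) ≤ Z + D := fun u => by
    have := (mem_riemannRochSpace_iff.mp hG u).resolve_left hG0
    rw [Finsupp.zero_apply, Finsupp.add_apply, hZ u]
    omega
  have heq : Z + D = 0 := (hC.eq_of_le_of_degree_le hle (by rw [map_add, hZd, hD]; simp)).symm
  have h := congrArg (fun E : Divisor K F => E v) heq
  simp only [Finsupp.add_apply, Finsupp.zero_apply, hZ v] at h
  omega

/-- Sections in negative degree vanish. -/
theorem eq_zero_of_mem_degree_neg (hC : PlaceRed.RRCurve K F g) {D : Divisor K F}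
    (hD : Divisor.degree D < 0) {G : F} (hG : G ∈ riemannRochSpace D) : G = 0 := by
  by_contra hG0
  have := hC.principal
  obtain ⟨Z, hZ, hZd⟩ := HasPrincipalDivisors.exists_divisor (K := K) G hG0
  have hle : (0 : Divisor K F) ≤ Z + D := fun u => by
    have := (mem_riemannRochSpace_iff.mp hG u).resolve_left hG0
    rw [Finsupp.zero_apply, Finsupp.add_apply, hZ u]
    omega
  have h := hC.degree_mono hle
  rw [map_zero, map_add, hZd] at h
  omega

/-- The order of a non-zero section at a place is bounded. -/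
theorem ord_le_of_mem (hC : PlaceRed.RRCurve K F g) {D : Divisor K F} {G : F}
    (hG : G ∈ riemannRochSpace D) (hG0 : G ≠ 0) (v : Place K F) :
    v.ord G ≤ Divisor.degree D - D v := by
  by_contra h
  refine hG0 (eq_zero_of_mem_degree_neg hC (D := D + Finsupp.single v (-(Divisor.degree D + 1)))
    ?_ ?_)
  · rw [map_add, hC.degree_single_eq]
    omega
  · rw [mem_riemannRochSpace_iff]
    intro u
    refine Or.inr ?_
    rw [Finsupp.add_apply]
    rcases eq_or_ne u v with rfl | hu
    · rw [Finsupp.single_eq_same]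
      omega
    · rw [Finsupp.single_eq_of_ne hu, add_zero]
      exact (mem_riemannRochSpace_iff.mp hG u).resolve_left hG0

/-- A functions without zeros and poles lies in `L(0)`. -/
theorem mem_zero_of_ord_eq_zero {u : F} (h : ∀ v : Place K F, v.ord u = 0) :
    u ∈ riemannRochSpace (0 : Divisor K F) := by
  rw [mem_riemannRochSpace_iff]
  exact fun v => Or.inr (by simp [h v])

variable (φ : F →ₐ[K] LaurentSeries K) {P : Place K F}
  (hφ : ∀ x : F, x ≠ 0 → P.ord x = (φ x).order)

/-- `σ` acts on the expansion coefficient by coefficient. -/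
def ActsOnCoeff (σ : SemilinearAut K F) : Prop :=
  ∀ (x : F) (i : ℤ), (φ (σ • x)).coeff i = SemilinearAut.baseAut σ ((φ x).coeff i)

theorem coeff_algHom_smul (c : K) (x : F) (i : ℤ) :
    (φ (c • x)).coeff i = c * (φ x).coeff i := by
  rw [Algebra.smul_def, map_mul, AlgHom.commutes,
    ModularCurve.algebraMap_laurentSeries_eq_single, HahnSeries.coeff_single_mul, sub_zero]

include hφ

theorem coeff_eq_zero_of_lt_ord {x : F} {i : ℤ} (hi : i < P.ord x) : (φ x).coeff i = 0 := by
  rcases eq_or_ne x 0 with rfl | hx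
  · simp
  rw [hφ x hx] at hi
  exact HahnSeries.coeff_eq_zero_of_lt_order hi

theorem coeff_ord_ne_zero {x : F} (hx : x ≠ 0) : (φ x).coeff (P.ord x) ≠ 0 := by
  rw [hφ x hx]
  exact mt HahnSeries.coeff_order_eq_zero.mp ((map_ne_zero φ).mpr hx)

theorem lt_ord_of_coeff {x : F} (hx : x ≠ 0) {d : ℤ} (h : ∀ i ≤ d, (φ x).coeff i = 0) :
    d < P.ord x :=
  not_le.mp fun hle => coeff_ord_ne_zero φ hφ hx (h _ hle)

/-- Sections of the same exact order are proportional when no section has larger order. -/
theorem exists_smul_eq {V : Submodule K F} {d : ℤ} (hV : ∀ x ∈ V, x ≠ 0 → P.ord x = d)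
    {x : F} (hx : x ∈ V) (hx0 : x ≠ 0) {y : F} (hy : y ∈ V) : ∃ c : K, y = c • x := by
  rcases eq_or_ne y 0 with rfl | hy0
  · exact ⟨0, (zero_smul K x).symm⟩
  have hd := hV x hx hx0
  refine ⟨(φ y).coeff d / (φ x).coeff d, ?_⟩
  by_contra hne
  have hz : y - ((φ y).coeff d / (φ x).coeff d) • x ≠ 0 := sub_ne_zero.mpr hne
  have hmem := V.sub_mem hy (V.smul_mem ((φ y).coeff d / (φ x).coeff d) hx)
  have hlt := lt_ord_of_coeff φ hφ hz (d := d) fun i hi => by
    rw [map_sub, HahnSeries.coeff_sub, coeff_algHom_smul]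
    rcases hi.lt_or_eq with h | rfl
    · rw [coeff_eq_zero_of_lt_ord φ hφ (lt_of_lt_of_eq h (hV y hy hy0).symm),
        coeff_eq_zero_of_lt_ord φ hφ (lt_of_lt_of_eq h hd.symm), mul_zero, sub_zero]
    · rw [div_mul_cancel₀ _ (hd ▸ coeff_ord_ne_zero φ hφ hx0), sub_self]
  rw [hV _ hmem hz] at hlt
  exact lt_irrefl _ hlt

/-- Functions without zeros and poles are constant. -/
theorem exists_eq_algebraMap_of_ord (hC : PlaceRed.RRCurve K F g) {u : F}
    (h : ∀ v : Place K F, v.ord u = 0) : ∃ c : K, u = algebraMap K F c := by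
  obtain ⟨c, hc⟩ := exists_smul_eq φ hφ (V := riemannRochSpace (0 : Divisor K F)) (d := 0)
    (fun x hx hx0 => by simpa using ord_eq_of_mem_degree_zero hC (map_zero _) hx hx0 P)
    (mem_zero_of_ord_eq_zero fun v => Place.ord_one v) one_ne_zero (mem_zero_of_ord_eq_zero h)
  exact ⟨c, by rw [hc, Algebra.smul_def, mul_one]⟩

omit hφ in
/-- A non-zero function with leading coefficient `1` is fixed as soon as it is fixed up to a
constant. -/
theorem smul_eq_self_of_monic {σ : SemilinearAut K F} (hσ : ActsOnCoeff φ σ) {x : F}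
    (hx1 : (φ x).coeff (P.ord x) = 1) {c : K} (hc : σ • x = c • x) : σ • x = x := by
  have h := hσ x (P.ord x)
  rw [hc, coeff_algHom_smul, hx1, mul_one, map_one] at h
  rw [hc, h, one_smul]

/-- A bounded non-zero space has a canonical element. -/
theorem exists_fixed_top {V : Submodule K F} (hne : ∃ x ∈ V, x ≠ 0) {b : ℤ}
    (hb : ∀ x ∈ V, x ≠ 0 → P.ord x ≤ b) :
    ∃ h ∈ V, h ≠ 0 ∧ ∀ σ : SemilinearAut K F, ActsOnCoeff φ σ → (∀ x ∈ V, σ • x ∈ V) →
      σ • h = h := by
  obtain ⟨x₀, hx₀, hx₀0⟩ := hne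
  obtain ⟨d, ⟨x, hx, hx0, rfl⟩, hmax⟩ := Int.exists_greatest_of_bdd
    (P := fun z => ∃ x ∈ V, x ≠ 0 ∧ P.ord x = z)
    ⟨b, fun z ⟨x, hx, hx0, hz⟩ => hz ▸ hb x hx hx0⟩ ⟨_, x₀, hx₀, hx₀0, rfl⟩
  set d := P.ord x
  set a := (φ x).coeff d with ha
  have ha0 : a ≠ 0 := coeff_ord_ne_zero φ hφ hx0
  set h := a⁻¹ • x with hh
  have hmem : h ∈ V := V.smul_mem _ hx
  have hc : ∀ i ≤ d, (φ h).coeff i = if i = d then 1 else 0 := fun i hi => by
    rw [hh, coeff_algHom_smul]
    split_ifs with he
    · rw [he, ← ha, inv_mul_cancel₀ ha0]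
    · rw [coeff_eq_zero_of_lt_ord φ hφ (lt_of_le_of_ne hi he), mul_zero]
  refine ⟨h, hmem, smul_ne_zero (inv_ne_zero ha0) hx0, fun σ hσ hst => ?_⟩
  by_contra hne
  have hz : σ • h - h ≠ 0 := sub_ne_zero.mpr hne
  have hlt := lt_ord_of_coeff φ hφ hz (d := d) fun i hi => by
    rw [map_sub, HahnSeries.coeff_sub, hσ, hc i hi]
    split_ifs <;> simp
  exact absurd (hmax _ ⟨_, V.sub_mem (hst h hmem) hmem, hz, rfl⟩) (not_le.mpr hlt)

/-- A degree zero class has a representative fixed by every semilinear automorphism fixing the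
class and the place `P`. -/
theorem exists_canonical_rep (hC : PlaceRed.RRCurve K F g) (x : Pic0 K F) :
    ∃ (D : Divisor.degZero (K := K) (F := F)) (m : ℕ), m ≤ 2 * g ∧ Pic0.mk D = x ∧
      0 ≤ (D : Divisor K F) + Finsupp.single P (m : ℤ) ∧
      ∀ σ : SemilinearAut K F, σ • P = P → σ • x = x → σ • (D : Divisor K F) = D := by
  classical
  obtain ⟨D, rfl⟩ := Pic0.mk_surjective x
  have hD0 : Divisor.degree (D : Divisor K F) = 0 := Divisor.mem_degZero.mp D.2
  have hdeg : ∀ i : ℕ, Divisor.degree ((D : Divisor K F) + Finsupp.single P (i : ℤ)) = i :=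
    fun i => by rw [map_add, hC.degree_single_eq, hD0, zero_add]
  let W : ℕ → Submodule K F := fun i =>
    riemannRochSpace ((D : Divisor K F) + Finsupp.single P (i : ℤ))
  have hex : ∃ i, ∃ G ∈ W i, G ≠ 0 := by
    refine ⟨2 * g, Submodule.exists_mem_ne_zero_of_ne_bot fun h0 => ?_⟩
    have h1 := hC.finrank_eq ((D : Divisor K F) + Finsupp.single P ((2 * g : ℕ) : ℤ))
      (by rw [hdeg]; push_cast; omega)
    rw [hdeg, show riemannRochSpace _ = W (2 * g) from rfl, h0, finrank_bot] at h1
    omega
  set m := Nat.find hex with hm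
  have hm2 : m ≤ 2 * g := by
    refine Nat.find_min' hex (Submodule.exists_mem_ne_zero_of_ne_bot fun h0 => ?_)
    have h1 := hC.finrank_eq ((D : Divisor K F) + Finsupp.single P ((2 * g : ℕ) : ℤ))
      (by rw [hdeg]; push_cast; omega)
    rw [hdeg, show riemannRochSpace _ = W (2 * g) from rfl, h0, finrank_bot] at h1
    omega
  obtain ⟨G, hG, hG0⟩ : ∃ G ∈ W m, G ≠ 0 := Nat.find_spec hex
  have hexact : ∀ y ∈ W m, y ≠ 0 → P.ord y = -((D : Divisor K F) P + m) := by
    intro y hy hy0
    have h1 := (mem_riemannRochSpace_iff.mp hy P).resolve_left hy0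
    rw [Finsupp.add_apply, Finsupp.single_eq_same] at h1
    rcases Nat.eq_zero_or_pos m with h0 | hpos
    · have h2 := ord_eq_of_mem_degree_zero hC (D := (D : Divisor K F) + Finsupp.single P (m : ℤ))
        (by rw [hdeg, h0]; rfl) hy hy0 P
      rwa [Finsupp.add_apply, Finsupp.single_eq_same] at h2
    · by_contra hne
      refine Nat.find_min hex (show m - 1 < m by omega) ⟨y, ?_, hy0⟩
      rw [mem_riemannRochSpace_iff]
      intro v
      refine Or.inr ?_
      rcases eq_or_ne v P with rfl | hv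
      · rw [Finsupp.add_apply, Finsupp.single_eq_same]
        omega
      · rw [Finsupp.add_apply, Finsupp.single_eq_of_ne hv]
        have h2 := (mem_riemannRochSpace_iff.mp hy v).resolve_left hy0
        rw [Finsupp.add_apply, Finsupp.single_eq_of_ne hv] at h2
        exact h2
  have := hC.principal
  obtain ⟨Z, hZ, hZd⟩ := HasPrincipalDivisors.exists_divisor (K := K) G hG0
  refine ⟨⟨(D : Divisor K F) + Z, by rw [Divisor.mem_degZero, map_add, hD0, hZd, add_zero]⟩, m,
    hm2, ?_, fun v => ?_, fun σ hσP hσx => ?_⟩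
  · exact (QuotientAddGroup.eq_iff_sub_mem).mpr ⟨G, hG0, fun v => by
      show ((D : Divisor K F) + Z - D) v = _
      rw [add_sub_cancel_left, hZ v]⟩
  · have h2 := (mem_riemannRochSpace_iff.mp hG v).resolve_left hG0
    rw [Finsupp.zero_apply]
    show 0 ≤ ((D : Divisor K F) + Z + Finsupp.single P (m : ℤ)) v
    rw [Finsupp.add_apply] at h2
    rw [Finsupp.add_apply, Finsupp.add_apply, hZ v]
    omega
  · rw [SemilinearAut.pic0_smul_mk] at hσx
    obtain ⟨u, hu, huD⟩ := (QuotientAddGroup.eq_iff_sub_mem).mp hσx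
    have huD' : ∀ v : Place K F, (σ • (D : Divisor K F)) v - (D : Divisor K F) v = v.ord u :=
      fun v => huD v
    have hσG : σ • G ≠ 0 := (smul_ne_zero_iff_ne σ).mpr hG0
    have hσZ : ∀ v : Place K F, (σ • Z) v = v.ord (σ • G) := fun v => by
      rw [SemilinearAut.divisor_smul_apply, hZ]
      have h := SemilinearAut.ord_smul σ (σ⁻¹ • v) G
      rw [smul_inv_smul] at h
      exact h.symm
    have hmem : u * (σ • G) ∈ W m := by
      rw [mem_riemannRochSpace_iff]
      intro v
      refine Or.inr ?_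
      have h2 := smul_mem_rrSpace σ hG
      rw [smul_add, SemilinearAut.smul_single, hσP] at h2
      have h3 := (mem_riemannRochSpace_iff.mp h2 v).resolve_left hσG
      rw [Finsupp.add_apply] at h3 ⊢
      rw [v.ord_mul hu hσG, ← huD' v]
      omega
    obtain ⟨c, hc⟩ := exists_smul_eq φ hφ hexact hG hG0 hmem
    have hc0 : c ≠ 0 := fun h0 => mul_ne_zero hu hσG (by rw [hc, h0, zero_smul])
    ext v
    show (σ • ((D : Divisor K F) + Z)) v = ((D : Divisor K F) + Z) v
    rw [smul_add, Finsupp.add_apply, Finsupp.add_apply, hσZ v, hZ v]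
    have h4 : v.ord (u * (σ • G)) = v.ord G := by
      rw [hc, Algebra.smul_def, v.ord_mul ((map_ne_zero _).mpr hc0) hG0, ord_algebraMap, zero_add]
    rw [v.ord_mul hu hσG, ← huD' v] at h4
    omega

/-- A class fixed by a set of symmetries has a fixed Kummer function. -/
theorem exists_fixed_kummer (hC : PlaceRed.RRCurve K F g) {n : ℕ} {x : Pic0 K F} (hx : n • x = 0)
    {I : Set (SemilinearAut K F)} (hI : ∀ σ ∈ I, ActsOnCoeff φ σ ∧ σ • P = P ∧ σ • x = x) :
    ∃ (D : Divisor.degZero (K := K) (F := F)) (f : F), f ≠ 0 ∧ Pic0.mk D = x ∧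
      (∀ v : Place K F, (n : ℤ) * (D : Divisor K F) v = v.ord f) ∧
      ∀ σ ∈ I, σ • f = f ∧ σ • (D : Divisor K F) = D := by
  obtain ⟨D, m, -, rfl, -, hfix⟩ := exists_canonical_rep φ hφ hC x
  obtain ⟨f₁, hf₁, hfD⟩ : n • D ∈ (Divisor.principal (K := K) (F := F)).addSubgroupOf _ :=
    (QuotientAddGroup.eq_zero_iff _).mp hx
  have ha : ((φ f₁).coeff (P.ord f₁))⁻¹ ≠ 0 := inv_ne_zero (coeff_ord_ne_zero φ hφ hf₁)
  set f := ((φ f₁).coeff (P.ord f₁))⁻¹ • f₁ with hf
  have hf0 : f ≠ 0 := smul_ne_zero ha hf₁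
  have hord : ∀ v : Place K F, v.ord f = v.ord f₁ := fun v => by
    rw [hf, Algebra.smul_def, v.ord_mul ((map_ne_zero _).mpr ha) hf₁, ord_algebraMap, zero_add]
  have hD : ∀ v : Place K F, (n : ℤ) * (D : Divisor K F) v = v.ord f := fun v => by
    have h := hfD v
    rw [AddSubgroup.coe_subtype, AddSubgroupClass.coe_nsmul, Finsupp.smul_apply,
      nsmul_eq_mul] at h
    rw [hord v, ← h]
  refine ⟨D, f, hf0, rfl, hD, fun σ hσ => ?_⟩
  obtain ⟨hact, hP, hσx⟩ := hI σ hσ
  have hσD := hfix σ hP hσx
  refine ⟨?_, hσD⟩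
  have hσf : σ • f ≠ 0 := (smul_ne_zero_iff_ne σ).mpr hf0
  obtain ⟨c, hc⟩ := exists_eq_algebraMap_of_ord φ hφ hC (u := σ • f * f⁻¹) fun v => by
    have h := SemilinearAut.ord_smul σ (σ⁻¹ • v) f
    rw [smul_inv_smul, ← hD, ← SemilinearAut.divisor_smul_apply, hσD] at h
    rw [v.ord_mul hσf (inv_ne_zero hf0), v.ord_inv, h, hD, add_neg_cancel]
  refine smul_eq_self_of_monic φ (P := P) hact ?_ (c := c) ?_
  · rw [hord P, hf, coeff_algHom_smul, inv_mul_cancel₀ (coeff_ord_ne_zero φ hφ hf₁)]
  · rw [Algebra.smul_def, ← hc, inv_mul_cancel_right₀ hf0]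

/-- There is a non-constant function fixed by a Frobenius. -/
theorem exists_fixed_nonconstant [IsAlgClosed K] (hC : PlaceRed.RRCurve K F g)
    {τ : SemilinearAut K F} {Q : ℕ} (hQ : 2 ≤ Q) (hbase : ∀ c : K, SemilinearAut.baseAut τ c = c ^ Q)
    (hact : ActsOnCoeff φ τ) (hτP : τ • P = P) :
    ∃ x : F, τ • x = x ∧ P.ord x < 0 := by
  classical
  let W : ℕ → Submodule K F := fun i => riemannRochSpace (Finsupp.single P (i : ℤ))
  have hWP : ∀ (i : ℕ), ∀ y ∈ W i, y ≠ 0 → -(i : ℤ) ≤ P.ord y := fun i y hy hy0 => by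
    simpa using (mem_riemannRochSpace_iff.mp hy P).resolve_left hy0
  have hWdeg : ∀ i : ℕ, Divisor.degree (Finsupp.single P (i : ℤ)) = i := fun i =>
    hC.degree_single_eq _ _
  have hex : ∃ i, ∃ G ∈ W i, G ≠ 0 ∧ P.ord G < 0 := by
    refine ⟨2 * g + 1, ?_⟩
    by_contra hno
    push Not at hno
    have hle : W (2 * g + 1) ≤ riemannRochSpace (0 : Divisor K F) := fun G hG => by
      rw [mem_riemannRochSpace_iff]
      intro v
      rcases eq_or_ne G 0 with h0 | h0
      · exact Or.inl h0
      refine Or.inr ?_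
      rcases eq_or_ne v P with rfl | hv
      · simpa using hno G hG h0
      · simpa [Finsupp.single_eq_of_ne hv] using
          (mem_riemannRochSpace_iff.mp hG v).resolve_left h0
    have hz : riemannRochSpace (0 : Divisor K F) ≤ K ∙ (1 : F) := fun G hG => by
      rcases eq_or_ne G 0 with h0 | h0
      · rw [h0]; exact zero_mem _
      obtain ⟨c, hc⟩ := exists_eq_algebraMap_of_ord φ hφ hC (u := G) fun v => by
        simpa using ord_eq_of_mem_degree_zero hC (map_zero _) hG h0 v
      exact Submodule.mem_span_singleton.mpr ⟨c, by rw [hc, Algebra.smul_def, mul_one]⟩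
    have := hC.finiteDimensional (0 : Divisor K F)
    have h1 := Submodule.finrank_mono (hle.trans hz)
    have h2 := hC.finrank_eq (Finsupp.single P ((2 * g + 1 : ℕ) : ℤ))
      (by rw [hWdeg]; push_cast; omega)
    rw [hWdeg, show riemannRochSpace _ = W (2 * g + 1) from rfl] at h2
    rw [finrank_span_singleton (one_ne_zero (α := F))] at h1
    omega
  set j := Nat.find hex with hj
  obtain ⟨G, hG, hG0, hGneg⟩ := Nat.find_spec hex
  have hj1 : 1 ≤ j := by
    by_contra hcon
    have := hWP j G hG hG0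
    omega
  have hexact : P.ord G = -(j : ℤ) := by
    by_contra hne
    refine Nat.find_min hex (show j - 1 < j by omega) ⟨G, ?_, hG0, hGneg⟩
    rw [mem_riemannRochSpace_iff]
    intro v
    refine Or.inr ?_
    rcases eq_or_ne v P with rfl | hv
    · rw [Finsupp.single_eq_same]
      have := hWP j G hG hG0
      omega
    · simpa [Finsupp.single_eq_of_ne hv] using
        (mem_riemannRochSpace_iff.mp hG v).resolve_left hG0
  have ha : ((φ G).coeff (-(j : ℤ)))⁻¹ ≠ 0 :=
    inv_ne_zero (hexact ▸ coeff_ord_ne_zero φ hφ hG0)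
  set x := ((φ G).coeff (-(j : ℤ)))⁻¹ • G with hx
  have hxW : x ∈ W j := (W j).smul_mem _ hG
  have hx0 : x ≠ 0 := smul_ne_zero ha hG0
  have hx1 : (φ x).coeff (-(j : ℤ)) = 1 := by
    rw [hx, coeff_algHom_smul, inv_mul_cancel₀ (hexact ▸ coeff_ord_ne_zero φ hφ hG0)]
  have hxord : P.ord x = -(j : ℤ) := by
    rw [hx, Algebra.smul_def, P.ord_mul ((map_ne_zero _).mpr ha) hG0, ord_algebraMap, zero_add,
      hexact]
  have hτW : τ • x ∈ W j := by
    have := smul_mem_rrSpace τ hxW
    rwa [SemilinearAut.smul_single, hτP] at this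
  obtain ⟨c, hc⟩ : ∃ c : K, τ • x - x = algebraMap K F c := by
    rcases eq_or_ne (τ • x - x) 0 with h0 | h0
    · exact ⟨0, by rw [h0, map_zero]⟩
    have hmem : τ • x - x ∈ W j := (W j).sub_mem hτW hxW
    have hnn : 0 ≤ P.ord (τ • x - x) := by
      by_contra hneg
      refine Nat.find_min hex (show j - 1 < j by omega) ⟨_, ?_, h0, not_le.mp hneg⟩
      rw [mem_riemannRochSpace_iff]
      intro v
      refine Or.inr ?_
      rcases eq_or_ne v P with rfl | hv
      · rw [Finsupp.single_eq_same]
        have hlt := lt_ord_of_coeff φ hφ h0 (d := -(j : ℤ)) fun i hi => by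
          rw [map_sub, HahnSeries.coeff_sub, hact]
          rcases hi.lt_or_eq with h | rfl
          · rw [coeff_eq_zero_of_lt_ord φ hφ (hxord.symm ▸ h), map_zero, sub_zero]
          · rw [hx1, map_one, sub_self]
        omega
      · simpa [Finsupp.single_eq_of_ne hv] using
          (mem_riemannRochSpace_iff.mp hmem v).resolve_left h0
    refine exists_eq_algebraMap_of_ord φ hφ hC fun v => ?_
    have hL0 : τ • x - x ∈ riemannRochSpace (0 : Divisor K F) := by
      rw [mem_riemannRochSpace_iff]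
      intro u
      refine Or.inr ?_
      rcases eq_or_ne u P with rfl | hu
      · simpa using hnn
      · simpa [Finsupp.single_eq_of_ne hu] using
          (mem_riemannRochSpace_iff.mp hmem u).resolve_left h0
    simpa using ord_eq_of_mem_degree_zero hC (map_zero _) hL0 h0 v
  obtain ⟨d, hd⟩ := IsAlgClosed.exists_root
    (Polynomial.X ^ Q - Polynomial.X + Polynomial.C c) (by
      have h1 : (Polynomial.X ^ Q - Polynomial.X + Polynomial.C c).natDegree = Q := by
        rw [Polynomial.natDegree_add_C, Polynomial.natDegree_sub_eq_left_of_natDegree_lt] <;>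
          simp only [Polynomial.natDegree_X_pow, Polynomial.natDegree_X]
        omega
      intro h0
      rw [Polynomial.natDegree_eq_zero_iff_degree_le_zero.mpr h0.le] at h1
      omega)
  simp only [Polynomial.IsRoot, Polynomial.eval_add, Polynomial.eval_sub, Polynomial.eval_pow,
    Polynomial.eval_X, Polynomial.eval_C] at hd
  refine ⟨x + algebraMap K F d, ?_, ?_⟩
  · rw [smul_add, SemilinearAut.smul_algebraMap, hbase,
      show τ • x = x + algebraMap K F c by rw [← hc]; ring, add_assoc, ← map_add,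
      show c + d ^ Q = d by linear_combination hd]
  · rcases eq_or_ne d 0 with rfl | hd0
    · rw [map_zero, add_zero, hxord]; omega
    rw [ord_add_eq_of_lt P hx0 ((map_ne_zero _).mpr hd0) (by
      rw [ord_algebraMap, hxord]; omega), hxord]
    omega

/-- A Frobenius fixes only finitely many places. -/
theorem finite_fixed_places [IsAlgClosed K] (hC : PlaceRed.RRCurve K F g)
    {τ : SemilinearAut K F} {Q : ℕ} (hQ : 2 ≤ Q) (hbase : ∀ c : K, SemilinearAut.baseAut τ c = c ^ Q)
    (hact : ActsOnCoeff φ τ) (hτP : τ • P = P) {r : ℕ} (hr : 0 < r) :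
    {v : Place K F | τ ^ r • v = v}.Finite := by
  classical
  obtain ⟨x, hxfix, hxP⟩ := exists_fixed_nonconstant φ hφ hC hQ hbase hact hτP
  have hx0 : x ≠ 0 := fun h => by rw [h, Place.ord_zero] at hxP; exact lt_irrefl _ hxP
  have hxnc : ∀ c : K, x - algebraMap K F c ≠ 0 := fun c h => by
    rw [sub_eq_zero.mp h, ord_algebraMap] at hxP
    exact lt_irrefl _ hxP
  have := hC.principal
  have hsupp : ∀ y : F, y ≠ 0 → {v : Place K F | v.ord y ≠ 0}.Finite := fun y hy => by
    obtain ⟨Z, hZ, -⟩ := HasPrincipalDivisors.exists_divisor (K := K) y hy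
    exact Z.support.finite_toSet.subset fun v hv => Finsupp.mem_support_iff.mpr (hZ v ▸ hv)
  have hbase' : ∀ (c : K), SemilinearAut.baseAut (τ ^ r) c = c ^ Q ^ r := by
    clear hr
    intro c
    induction r with
    | zero => simp
    | succ r ih =>
      rw [pow_succ', SemilinearAut.baseAut_mul, RingAut.mul_apply, ih, hbase, ← pow_mul, pow_succ]
  have hfix' : τ ^ r • x = x := by
    clear hr hbase'
    induction r with
    | zero => exact one_smul _ _
    | succ r ih => rw [pow_succ', mul_smul, ih, hxfix]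
  set C : Set K := {c | c ^ Q ^ r = c}
  have hQr : 2 ≤ Q ^ r := hQ.trans (Nat.le_self_pow hr.ne' Q)
  have hCfin : C.Finite := by
    refine ((Polynomial.X ^ (Q ^ r) - Polynomial.X : Polynomial K).roots.toFinset).finite_toSet.subset
      fun c hc => ?_
    rw [Finset.mem_coe, Multiset.mem_toFinset, Polynomial.mem_roots
      (FiniteField.X_pow_card_sub_X_ne_zero K (by omega))]
    simp [Polynomial.IsRoot, show c ^ Q ^ r = c from hc]
  refine ((hsupp x hx0).union (hCfin.biUnion fun c _ => hsupp _ (hxnc c))).subset fun v hv => ?_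
  simp only [Set.mem_ofPred_eq] at hv
  by_contra hnot
  simp only [Set.mem_union, Set.mem_ofPred_eq, Set.mem_iUnion, not_or, not_exists, not_not] at hnot
  obtain ⟨h0, hc⟩ := hnot
  have hxmem : x ∈ v.toValuationSubring := (mem_iff_ord_nonneg v hx0).mpr h0.ge
  obtain ⟨c, hcr⟩ : ∃ c : K, residueMap v ⟨x, hxmem⟩ = algebraMap K v.ResidueField c := by
    obtain ⟨c, hc'⟩ := (finrank_eq_one_iff_of_nonzero' (1 : v.ResidueField) one_ne_zero).mp
      (hC.deg_eq_one v) (residueMap v ⟨x, hxmem⟩)
    exact ⟨c, by rw [← hc', Algebra.smul_def, mul_one]⟩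
  have hpos : 0 < v.ord (x - algebraMap K F c) := by
    have h : residueMap v (⟨x, hxmem⟩ - algebraMap K v.toValuationSubring c) = 0 := by
      rw [map_sub, hcr, sub_eq_zero]
      rfl
    exact ((residueMap_eq_zero_iff v _).mp h).resolve_left (hxnc c)
  have hpos' : 0 < v.ord (x - algebraMap K F (c ^ Q ^ r)) := by
    have h := SemilinearAut.ord_smul (τ ^ r) v (x - algebraMap K F c)
    rw [smul_sub, SemilinearAut.smul_algebraMap, hfix', hbase', hv] at h
    rw [h]; exact hpos
  have hcC : c ^ Q ^ r = c := by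
    by_contra hne
    have hne' : c - c ^ Q ^ r ≠ 0 := sub_ne_zero.mpr (Ne.symm hne)
    have e : x - algebraMap K F (c ^ Q ^ r) =
        algebraMap K F (c - c ^ Q ^ r) + (x - algebraMap K F c) := by
      rw [map_sub]; ring
    have h2 := ord_add_eq_of_lt v ((map_ne_zero (algebraMap K F)).mpr hne') (hxnc c)
      (by rw [ord_algebraMap]; exact hpos)
    rw [e, h2, ord_algebraMap] at hpos'
    exact lt_irrefl _ hpos'
  exact hpos.ne' (hc c hcC)

/-- A Frobenius fixes only finitely many classes. -/
theorem exists_pos_nsmul_eq_zero [IsAlgClosed K] (hC : PlaceRed.RRCurve K F g)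
    {τ : SemilinearAut K F} {Q : ℕ} (hQ : 2 ≤ Q) (hbase : ∀ c : K, SemilinearAut.baseAut τ c = c ^ Q)
    (hact : ActsOnCoeff φ τ) (hτP : τ • P = P) :
    ∃ C : ℕ, 0 < C ∧ ∀ x : Pic0 K F, τ • x = x → C • x = 0 := by
  classical
  set r := (2 * g).factorial with hr
  have hT := finite_fixed_places φ hφ hC hQ hbase hact hτP (r := r) (Nat.factorial_pos _)
  set T : Finset (Place K F) := insert P hT.toFinset with hTdef
  let box : Finset (Divisor K F) := T.finsupp fun _ => Finset.Icc (-(2 * g : ℤ)) (2 * g)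
  set H : AddSubgroup (Pic0 K F) :=
    (DistribSMul.toAddMonoidHom (Pic0 K F) τ - AddMonoidHom.id _).ker with hH
  have hmemH : ∀ x, x ∈ H ↔ τ • x = x := fun x => by
    rw [hH, AddMonoidHom.mem_ker, AddMonoidHom.sub_apply, sub_eq_zero]
    rfl
  have hsub : (H : Set (Pic0 K F)) ⊆ Pic0.mk ''
      {D : Divisor.degZero (K := K) (F := F) | (D : Divisor K F) ∈ box} := by
    intro x hx
    obtain ⟨D, m, hm, hDx, hnn, hfix⟩ := exists_canonical_rep φ hφ hC x
    refine ⟨D, ?_, hDx⟩
    have hD := hfix τ hτP ((hmemH x).mp hx)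
    set E : Divisor K F := (D : Divisor K F) + Finsupp.single P (m : ℤ) with hE
    have hτE : τ • E = E := by rw [hE, smul_add, hD, SemilinearAut.smul_single, hτP]
    have hEdeg : Divisor.degree E = m := by
      rw [hE, map_add, Divisor.mem_degZero.mp D.2, hC.degree_single_eq, zero_add]
    have hEle : ∀ v, E v ≤ m := fun v => by
      rw [← hEdeg, hC.degree_eq_sum]
      by_cases hv : v ∈ E.support
      · exact Finset.single_le_sum (f := fun u => E u) (fun u _ => hnn u) hv
      · rw [Finsupp.notMem_support_iff.mp hv]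
        exact Finset.sum_nonneg fun u _ => hnn u
    have hcard : E.support.card ≤ 2 * g := by
      have h1 : (E.support.card : ℤ) ≤ Divisor.degree E := by
        rw [hC.degree_eq_sum, Finsupp.sum, Finset.cast_card]
        refine Finset.sum_le_sum fun u hu => ?_
        have := hnn u
        have := Finsupp.mem_support_iff.mp hu
        rw [Finsupp.zero_apply] at *
        omega
      omega
    have hTmem : ∀ v, E v ≠ 0 → v ∈ T := by
      intro v hv
      refine Finset.mem_insert_of_mem (hT.mem_toFinset.mpr ?_)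
      have horb : ∀ i : ℕ, τ ^ i • v ∈ E.support := fun i => by
        induction i with
        | zero => simpa using hv
        | succ i ih =>
          rw [pow_succ', mul_smul, Finsupp.mem_support_iff]
          rw [Finsupp.mem_support_iff] at ih
          have h := SemilinearAut.divisor_smul_apply_smul τ E (τ ^ i • v)
          rw [hτE] at h
          rwa [h]
      obtain ⟨i, hi, j, hj, hij, he⟩ := Finset.exists_ne_map_eq_of_card_lt_of_maps_to
        (s := Finset.range (2 * g + 1)) (t := E.support) (by simp; omega)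
        (f := fun i => τ ^ i • v) fun i _ => horb i
      rw [Finset.mem_range] at hi hj
      wlog hlt : i < j generalizing i j
      · exact this j hj i hi (Ne.symm hij) he.symm (by omega)
      have hd : τ ^ (j - i) • v = v := by
        have h : τ ^ i • (τ ^ (j - i) • v) = τ ^ i • v := by
          rw [← mul_smul, ← pow_add, Nat.add_sub_cancel' hlt.le]
          exact he.symm
        exact MulAction.injective (τ ^ i) h
      obtain ⟨t, ht⟩ : (j - i) ∣ r := Nat.dvd_factorial (by omega) (by omega)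
      show τ ^ r • v = v
      rw [ht, pow_mul]
      clear ht
      induction t with
      | zero => simp
      | succ t ih => rw [pow_succ, mul_smul, hd, ih]
    have happ : ∀ v, (D : Divisor K F) v = E v - (Finsupp.single P (m : ℤ)) v := fun v => by
      rw [hE, Finsupp.add_apply, add_sub_cancel_right]
    refine Finset.mem_finsupp_iff.mpr ⟨fun v hv => ?_, fun v _ => Finset.mem_Icc.mpr ?_⟩
    · rcases eq_or_ne v P with rfl | hvP
      · exact Finset.mem_insert_self _ _
      · refine hTmem v fun h0 => Finsupp.mem_support_iff.mp hv ?_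
        rw [happ, h0, Finsupp.single_eq_of_ne hvP, sub_zero]
    · have h1 : 0 ≤ E v := hnn v
      have h2 := hEle v
      rw [happ]
      rcases eq_or_ne v P with rfl | hvP
      · rw [Finsupp.single_eq_same]; omega
      · rw [Finsupp.single_eq_of_ne hvP]; omega
  have : Finite H := ((box.finite_toSet.preimage Subtype.val_injective.injOn).image
    Pic0.mk).subset hsub |>.to_subtype
  refine ⟨Nat.card H, Nat.card_pos, fun x hx => ?_⟩
  have h := card_nsmul_eq_zero' (G := H) (x := ⟨x, (hmemH x).mpr hx⟩)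
  exact congrArg Subtype.val h

end FLTA.BadRed.Ramified

end
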