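import Fermat.Agent.BadRed.Ramified.RedSpace
import Fermat.Agent.BadRed.Ramified.Places
import Fermat.Agent.BadRed.Toric.Root

/-!
# Scalings of fixed functions

A function has, on each component, a scaling with non-zero reduction, unique up to units.  For a
function fixed by inertia the scalings can be taken fixed, so that the valuation of their ratio
is an integer multiple of `v(q)`: `DiffVal`.
-/

set_option autoImplicit false

noncomputable section

open AlgebraicCurve FLTA.Curves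

namespace FLTA.BadRed

variable {K : Type*} [Field K] (A : ValuationSubring K)

/-- `c` is `q ^ v` times a unit. -/
def HasVal (q : ℕ) (c : K) (v : ℤ) : Prop :=
  c ≠ 0 ∧ c / (q : K) ^ v ∈ A ∧ (q : K) ^ v / c ∈ A

variable {A} {q : ℕ} {c d : K} {v w : ℤ}

namespace HasVal

theorem unit (hc : c ≠ 0) (h : c ∈ A) (h' : c⁻¹ ∈ A) : HasVal A q c 0 :=
  ⟨hc, by simpa using h, by simpa using h'⟩

theorem one : HasVal A q (1 : K) 0 := unit one_ne_zero A.one_mem (by simpa using A.one_mem)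

variable [CharZero K] [NeZero q]

theorem natCast_ne_zero : (q : K) ≠ 0 := Nat.cast_ne_zero.mpr (NeZero.ne q)

theorem mul (hc : HasVal A q c v) (hd : HasVal A q d w) : HasVal A q (c * d) (v + w) := by
  refine ⟨mul_ne_zero hc.1 hd.1, ?_, ?_⟩
  · rw [zpow_add₀ natCast_ne_zero, ← div_mul_div_comm]
    exact mul_mem hc.2.1 hd.2.1
  · rw [zpow_add₀ natCast_ne_zero, ← div_mul_div_comm]
    exact mul_mem hc.2.2 hd.2.2

theorem inv (hc : HasVal A q c v) : HasVal A q c⁻¹ (-v) := by
  refine ⟨inv_ne_zero hc.1, ?_, ?_⟩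
  · rw [zpow_neg, inv_div_inv]; exact hc.2.2
  · rw [zpow_neg, inv_div_inv]; exact hc.2.1

theorem pow (hc : HasVal A q c v) : ∀ j : ℕ, HasVal A q (c ^ j) (j * v)
  | 0 => by simpa using one
  | j + 1 => by
    rw [pow_succ, Nat.cast_succ, add_mul, one_mul]
    exact (hc.pow j).mul hc

variable {k : Type*} [Field k] [CharP k q]

theorem unique (π : A →+* k) (hc : HasVal A q c v) (hd : HasVal A q c w) : v = w := by
  have key : ∀ {a b : ℤ}, a < b → HasVal A q c a → HasVal A q c b → False := by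
    intro a b hab ha hb
    have h := mul_mem ha.2.2 hb.2.1
    rw [div_mul_div_comm, mul_comm c, mul_div_mul_right _ _ ha.1,
      ← zpow_sub₀ natCast_ne_zero] at h
    obtain ⟨j, hj⟩ := Int.eq_ofNat_of_zero_le (show (0 : ℤ) ≤ b - a by omega)
    rw [show a - b = -(j : ℤ) by omega, zpow_neg, zpow_natCast] at h
    have h1 : π ((q : A) ^ j) * π ⟨_, h⟩ = 1 := by
      rw [← map_mul, ← map_one π]
      congr 1
      refine Subtype.ext ?_
      push_cast
      exact mul_inv_cancel₀ (pow_ne_zero _ natCast_ne_zero)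
    rw [map_pow, map_natCast, CharP.cast_eq_zero, zero_pow (by omega), zero_mul] at h1
    exact zero_ne_one h1
  rcases lt_trichotomy v w with h | h | h
  · exact (key h hc hd).elim
  · exact h
  · exact (key h hd hc).elim

end HasVal

namespace BadFibre

variable {k : Type*} [Field k] {π : A →+* k}
  [NeZero q] {F : Type*} [Field F] [Algebra K F] {F' : Type*} [Field F'] [Algebra K F']
  {Fk : Type*} [Field Fk] [Algebra k Fk] {g gF : ℕ} (B : BadFibre A π q F F' Fk g gF)

/-- Scalings of `f` on the two components with non-zero reductions. -/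
structure ScaledRed (f : F) where
  /-- the scalings -/
  c : Fin 2 → K
  /-- the reductions -/
  p : Fin 2 → Fk
  p_ne : ∀ i, p i ≠ 0
  red : ∀ i, B.HasRed i (c i • f) (p i)

variable {B} {f h : F}

theorem ScaledRed.c_ne (d : B.ScaledRed f) (i : Fin 2) : d.c i ≠ 0 := fun h0 =>
  (d.red i).ne_zero (d.p_ne i) (by rw [h0, zero_smul])

theorem ScaledRed.ne_zero (d : B.ScaledRed f) : f ≠ 0 := fun h0 =>
  (d.red 0).ne_zero (d.p_ne 0) ((congrArg (d.c 0 • ·) h0).trans (smul_zero _))

/-- The product. -/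
def ScaledRed.mul (d : B.ScaledRed f) (e : B.ScaledRed h) : B.ScaledRed (f * h) where
  c i := d.c i * e.c i
  p i := d.p i * e.p i
  p_ne i := mul_ne_zero (d.p_ne i) (e.p_ne i)
  red i := by rw [← smul_mul_smul_comm]; exact (d.red i).mul (e.red i)

/-- A power. -/
def ScaledRed.pow (d : B.ScaledRed f) (j : ℕ) : B.ScaledRed (f ^ j) where
  c i := d.c i ^ j
  p i := d.p i ^ j
  p_ne i := pow_ne_zero j (d.p_ne i)
  red i := by rw [← smul_pow]; exact (d.red i).pow j

/-- The inverse. -/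
def ScaledRed.inv (d : B.ScaledRed f) : B.ScaledRed f⁻¹ where
  c i := (d.c i)⁻¹
  p i := (d.p i)⁻¹
  p_ne i := inv_ne_zero (d.p_ne i)
  red i := by
    have e : (d.c i)⁻¹ • f⁻¹ = (d.c i • f)⁻¹ := by
      rw [Algebra.smul_def, Algebra.smul_def, map_inv₀, mul_inv]
    rw [e]
    exact (d.red i).inv (d.p_ne i)

variable (B)

/-- The valuation of the ratio of the two scalings is `v · v(q)`. -/
def DiffVal (f : F) (v : ℤ) : Prop := ∃ d : B.ScaledRed f, HasVal A q (d.c 1 / d.c 0) v

variable {B} [CharZero K] [CharP k q] {v w : ℤ}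

theorem DiffVal.hasVal (hv : B.DiffVal f v) (e : B.ScaledRed f) :
    HasVal A q (e.c 1 / e.c 0) v := by
  obtain ⟨d, hd⟩ := hv
  have hu : ∀ i, HasVal A q (e.c i / d.c i) 0 := fun i => by
    obtain ⟨h1, h2⟩ := HasRed.scale_unique (e.red i) (d.red i) (e.p_ne i) (d.p_ne i)
    exact HasVal.unit (div_ne_zero (e.c_ne i) (d.c_ne i)) h1 (by rwa [inv_div])
  have h := (hd.mul (hu 1)).mul (hu 0).inv
  rw [neg_zero, add_zero, add_zero] at h
  convert h using 1
  have := d.c_ne 0; have := d.c_ne 1; have := e.c_ne 0; have := e.c_ne 1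
  field_simp

theorem DiffVal.unique (hv : B.DiffVal f v) (hw : B.DiffVal f w) : v = w := by
  obtain ⟨e, he⟩ := hw
  exact (hv.hasVal e).unique π he

theorem DiffVal.ne_zero (hv : B.DiffVal f v) : f ≠ 0 := hv.choose.ne_zero

theorem DiffVal.mul (hv : B.DiffVal f v) (hw : B.DiffVal h w) : B.DiffVal (f * h) (v + w) := by
  obtain ⟨d, hd⟩ := hv
  obtain ⟨e, he⟩ := hw
  refine ⟨d.mul e, ?_⟩
  show HasVal A q (d.c 1 * e.c 1 / (d.c 0 * e.c 0)) _
  rw [← div_mul_div_comm]
  exact hd.mul he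

theorem DiffVal.pow (hv : B.DiffVal f v) (j : ℕ) : B.DiffVal (f ^ j) (j * v) := by
  obtain ⟨d, hd⟩ := hv
  refine ⟨d.pow j, ?_⟩
  show HasVal A q (d.c 1 ^ j / d.c 0 ^ j) _
  rw [← div_pow]
  exact hd.pow j

theorem DiffVal.inv (hv : B.DiffVal f v) : B.DiffVal f⁻¹ (-v) := by
  obtain ⟨d, hd⟩ := hv
  refine ⟨d.inv, ?_⟩
  show HasVal A q ((d.c 1)⁻¹ / (d.c 0)⁻¹) _
  rw [inv_div_inv, ← inv_div]
  exact hd.inv

theorem DiffVal.const {c : K} (hc : c ≠ 0) : B.DiffVal (algebraMap K F c) 0 := by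
  refine ⟨⟨fun _ => c⁻¹, fun _ => 1, fun _ => one_ne_zero, fun i => ?_⟩, ?_⟩
  · rw [Algebra.smul_def, ← map_mul, inv_mul_cancel₀ hc, map_one]
    exact hasRed_one i
  · rw [div_self (inv_ne_zero hc)]
    exact HasVal.one

theorem DiffVal.zpow (hv : B.DiffVal f v) (j : ℤ) : B.DiffVal (f ^ j) (j * v) := by
  obtain ⟨j, rfl | rfl⟩ := Int.eq_nat_or_neg j
  · rw [zpow_natCast]; exact hv.pow j
  · rw [zpow_neg, zpow_natCast, neg_mul]; exact (hv.pow j).inv

variable (B)

/-- Inertia symmetries whose common fixed field is unramified over `ℚ` at the place. -/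
structure InertiaSys where
  /-- the symmetries -/
  I : Set B.Sym
  isInertia : ∀ s ∈ I, s.IsInertia
  exists_val : ∀ c : K, c ≠ 0 → (∀ s ∈ I, SemilinearAut.baseAut s.σ c = c) →
    ∃ v : ℤ, HasVal A q c v

variable {B} (J : B.InertiaSys)

/-- Fixed by the inertia symmetries. -/
def InertiaSys.Fixed (f : F) : Prop := ∀ s ∈ J.I, s.σ • f = f

variable {J}

theorem InertiaSys.Fixed.mul (hf : J.Fixed f) (hh : J.Fixed h) : J.Fixed (f * h) :=
  fun s hs => by rw [smul_mul', hf s hs, hh s hs]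

theorem InertiaSys.Fixed.pow (hf : J.Fixed f) (j : ℕ) : J.Fixed (f ^ j) :=
  fun s hs => by rw [smul_pow', hf s hs]

variable [IsAlgClosed K] [IsAlgClosed k] [Fact q.Prime]

/-- A fixed section has a fixed primitive scaling. -/
theorem exists_fixed_scale_section {m : ℕ} {x : F} (hx : x ∈ riemannRochSpace (B.cuspDiv m))
    (hx0 : x ≠ 0) (hfix : J.Fixed x) (i : Fin 2) :
    ∃ (c : K) (p : Fk), c ≠ 0 ∧ p ≠ 0 ∧ (∀ s ∈ J.I, SemilinearAut.baseAut s.σ c = c) ∧
      B.HasRed i (c • x) p := by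
  have hy := B.e_ne_zero i hx0
  obtain ⟨c, hc, hint, hne⟩ := exists_primitive_multiple_one (π := π) B.discrete hy
    (B.bddSeries_e i hx) (B.fgSeries_e i x)
  obtain ⟨d, hd⟩ : ∃ d, (redSeries A π (c • B.e i x)).coeff d ≠ 0 := by
    by_contra h0
    push Not at h0
    exact hne (HahnSeries.ext (funext h0))
  have hcy : c * (B.e i x).coeff d ∈ A := by
    have := hint d
    rwa [HahnSeries.coeff_smul, smul_eq_mul] at this
  rw [redSeries_coeff, HahnSeries.coeff_smul, smul_eq_mul, redCoeff, dif_pos hcy] at hd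
  have hy0 : (B.e i x).coeff d ≠ 0 := fun h0 => hd (by
    rw [show (⟨_, hcy⟩ : A) = 0 from Subtype.ext (by simp [h0]), map_zero])
  have hinv : ((B.e i x).coeff d)⁻¹ / c ∈ A := by
    rw [div_eq_mul_inv, ← mul_inv, mul_comm]
    by_contra hn
    exact hd (residue_eq_zero_of_inv_notMem B.R.π_surjective hcy hn)
  have hπ : π ⟨_, hinv⟩ ≠ 0 := fun h0 => by
    have h1 : π ⟨_, hinv⟩ * π ⟨_, hcy⟩ = 1 := by
      rw [← map_mul, ← map_one π]
      congr 1
      exact Subtype.ext (show _ / c * (c * _) = (1 : K) by field_simp)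
    rw [h0, zero_mul] at h1
    exact zero_ne_one h1
  have e : ((B.e i x).coeff d)⁻¹ • B.e i x = (((B.e i x).coeff d)⁻¹ / c) • (c • B.e i x) := by
    rw [smul_smul, div_mul_cancel₀ _ hc]
  have hint' : IntSeries A (((B.e i x).coeff d)⁻¹ • B.e i x) := e ▸ hint.smul hinv
  have hne' : redSeries A π (((B.e i x).coeff d)⁻¹ • B.e i x) ≠ 0 := by
    rw [e, redSeries_smul hinv hint]
    exact smul_ne_zero hπ hne
  obtain ⟨p, hp⟩ := B.exists_exk_eq_redSeries i hint'
  refine ⟨_, p, inv_ne_zero hy0, fun h0 => hne' (by rw [← hp, h0, map_zero]), fun s hs => ?_,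
    hasRed_of_intSeries (by rw [← B.smul_e]; exact hint') (by rw [← B.smul_e]; exact hp)⟩
  have h1 := congrArg (fun z : LaurentSeries K => z.coeff d) (B.e_conj s i x)
  simp only [hfix s hs, ModularCurve.coeffMap_coeff] at h1
  rw [map_inv₀]
  exact congrArg (·⁻¹) h1.symm

/-- A fixed function has fixed scalings. -/
theorem exists_fixed_scaledRed (hf : f ≠ 0) (hfix : J.Fixed f) :
    ∃ d : B.ScaledRed f, ∀ i, ∀ s ∈ J.I, SemilinearAut.baseAut s.σ (d.c i) = d.c i := by
  classical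
  have := B.rrF.principal
  set Z := divFn (K := K) f
  set N : Divisor K F := Z.mapRange (fun x => max (-x) 0) (by simp) with hN
  have hN' : ∀ v, N v = max (-v.ord f) 0 := fun v => by
    rw [hN, Finsupp.mapRange_apply, divFn_apply]
  set l : ℕ := gF + (Divisor.degree N).toNat + 1 with hl
  have := B.rrF.finiteDimensional (B.cuspDiv l - N)
  have hdim := B.rrF.finrank_eq (B.cuspDiv l - N) (by rw [map_sub, degree_cuspDiv]; omega)
  rw [map_sub, degree_cuspDiv] at hdim
  obtain ⟨x, hxV, hx0, hxfix⟩ := Ramified.exists_fixed_top B.ex (P := B.P 0) B.ord_P_zero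
    (V := riemannRochSpace (B.cuspDiv l - N))
    (Submodule.exists_mem_ne_zero_of_ne_bot fun h0 => by rw [h0, finrank_bot] at hdim; omega)
    (fun y hy hy0 => Ramified.ord_le_of_mem B.rrF hy hy0 (B.P 0))
  have hxJ : J.Fixed x := fun s hs => hxfix s.σ s.ex_σ fun y hy => by
    have hσN : s.σ • N = N := by
      ext v
      rw [SemilinearAut.divisor_smul_apply, hN', hN']
      have h1 := SemilinearAut.ord_smul s.σ (s.σ⁻¹ • v) f
      rw [smul_inv_smul, hfix s hs] at h1
      rw [h1]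
    have h2 := Ramified.smul_mem_rrSpace s.σ hy
    rwa [smul_sub, B.smul_cuspDiv, hσN] at h2
  have hxl : x ∈ riemannRochSpace (B.cuspDiv l) :=
    riemannRochSpace_mono (Finsupp.le_def.mpr fun v => by
      rw [Finsupp.sub_apply, hN']; omega) hxV
  have hfxl : f * x ∈ riemannRochSpace (B.cuspDiv l) := by
    rw [mem_riemannRochSpace_iff]
    intro v
    refine Or.inr ?_
    have h1 := (mem_riemannRochSpace_iff.mp hxV v).resolve_left hx0
    rw [Finsupp.sub_apply, hN'] at h1
    rw [v.ord_mul hf hx0]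
    omega
  choose a r ha hr hafix hared using fun i =>
    exists_fixed_scale_section hfxl (mul_ne_zero hf hx0) (hfix.mul hxJ) i
  choose b t hb ht hbfix hbred using fun i => exists_fixed_scale_section hxl hx0 hxJ i
  refine ⟨⟨fun i => a i / b i, fun i => r i * (t i)⁻¹, fun i =>
    mul_ne_zero (hr i) (inv_ne_zero (ht i)), fun i => ?_⟩,
    fun i s hs => by rw [map_div₀, hafix i s hs, hbfix i s hs]⟩
  have h := (hared i).mul ((hbred i).inv (ht i))
  rwa [smul_mul_inv_smul, mul_inv_cancel_right₀ hx0] at h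

theorem InertiaSys.exists_diffVal (hf : f ≠ 0) (hfix : J.Fixed f) : ∃ v, B.DiffVal f v := by
  obtain ⟨d, hd⟩ := exists_fixed_scaledRed hf hfix
  obtain ⟨v, hv⟩ := J.exists_val (d.c 1 / d.c 0) (div_ne_zero (d.c_ne 1) (d.c_ne 0))
    fun s hs => by rw [map_div₀, hd 1 s hs, hd 0 s hs]
  exact ⟨v, d, hv⟩

end BadFibre

end FLTA.BadRed

end
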