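import Fermat.Agent.BadRed.Fibre.Sections
import Fermat.Agent.BadRed.Ramified.Valuation
import Fermat.Agent.Curves.BasicOrd
import Fermat.Agent.PlaceRed.Deuring

/-!
# Generic lemmas for the eta quotient near the other cusps
-/

set_option autoImplicit false

noncomputable section

open AlgebraicCurve FLTA.Curves

namespace FLTA.BadRed

/-- At a pole of `x` a monic polynomial in `x` with constant coefficients has order
`deg · ord x`. -/
theorem Ramified.ord_eval₂_monic {K F : Type*} [Field K] [Field F] [Algebra K F] (v : Place K F)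
    {x : F} (hx : v.ord x < 0) {R : Type*} [CommRing R] (σ : R →+* K) {P : Polynomial R}
    (hP : P.Monic) :
    v.ord (P.eval₂ ((algebraMap K F).comp σ) x) = P.natDegree * v.ord x ∧
      P.eval₂ ((algebraMap K F).comp σ) x ≠ 0 := by
  have hx0 : x ≠ 0 := by rintro rfl; simp at hx
  set d := P.natDegree
  set w := v.adicValuation
  have hlt : ∀ i ∈ Finset.range (d + 1) \ {d},
      w (((algebraMap K F).comp σ) (P.coeff i) * x ^ i) < w (x ^ d) := by
    intro i hi
    rw [Finset.mem_sdiff, Finset.mem_range, Finset.mem_singleton] at hi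
    rw [v.adicValuation_eq_exp_neg_ord (pow_ne_zero _ hx0), FLTA.Curves.ord_pow]
    by_cases hc : σ (P.coeff i) = 0
    · rw [RingHom.comp_apply, hc, map_zero, zero_mul, map_zero]
      exact WithZero.exp_pos
    have hc' : algebraMap K F (σ (P.coeff i)) ≠ 0 := (map_ne_zero _).mpr hc
    rw [RingHom.comp_apply, v.adicValuation_eq_exp_neg_ord (mul_ne_zero hc' (pow_ne_zero _ hx0)),
      WithZero.exp_lt_exp, v.ord_mul hc' (pow_ne_zero _ hx0), ord_algebraMap, FLTA.Curves.ord_pow]
    have : (i : ℤ) < d := by omega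
    nlinarith
  have hlead : ((algebraMap K F).comp σ) (P.coeff d) * x ^ d = x ^ d := by
    rw [hP.coeff_natDegree, map_one, one_mul]
  have hsum := w.map_sum_eq_of_lt (f := fun i => ((algebraMap K F).comp σ) (P.coeff i) * x ^ i)
    (Finset.self_mem_range_succ d) (fun i hi => by rw [hlead]; exact hlt i hi)
  rw [← Polynomial.eval₂_eq_sum_range, hlead] at hsum
  have hne : P.eval₂ ((algebraMap K F).comp σ) x ≠ 0 := fun h0 => by
    rw [h0, map_zero] at hsum
    exact v.adicValuation_ne_zero (pow_ne_zero _ hx0) hsum.symm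
  refine ⟨?_, hne⟩
  rw [v.adicValuation_eq_exp_neg_ord hne, v.adicValuation_eq_exp_neg_ord (pow_ne_zero _ hx0),
    WithZero.exp_inj, neg_inj, FLTA.Curves.ord_pow] at hsum
  exact hsum

namespace BadFibre

variable {K : Type*} [Field K] [IsAlgClosed K] [CharZero K] {A : ValuationSubring K}
  {k : Type*} [Field k] [IsAlgClosed k] {π : A →+* k}
  {q : ℕ} [NeZero q] [Fact q.Prime] [CharP k q]
  {F : Type*} [Field F] [Algebra K F] {F' : Type*} [Field F'] [Algebra K F']
  {Fk : Type*} [Field Fk] [Algebra k Fk] {g gF : ℕ} (B : BadFibre A π q F F' Fk g gF)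

omit [IsAlgClosed K] [IsAlgClosed k] [CharP k q] in
/-- A lift along `a` reduces to `(b, iota b)`. -/
theorem isRed_a_of_red {l : ℕ} {x : B.R.O}
    (hx : (x : F') ∈ riemannRochSpace (Finsupp.single B.inf (l : ℤ))) (hb : B.R.red x ≠ 0) :
    B.IsRed (B.a x) ![B.R.red x, B.iota (B.R.red x)] := by
  have hq : 2 ≤ q := Nat.Prime.two_le Fact.out
  have hax : B.a (x : F') ∈ riemannRochSpace (B.cuspDiv (q * l)) :=
    B.a_mem_riemannRochSpace hq hx
  have hx0 : (x : F') ≠ 0 := fun h => hb (by rw [show x = 0 from Subtype.ext h, map_zero])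
  obtain ⟨c, hc0, hcint, hcne⟩ := exists_primitive_multiple_one (π := π) B.discrete
    (B.e_ne_zero 0 ((map_ne_zero B.a).mpr hx0)) (B.bddSeries_e 0 hax) (B.fgSeries_e 0 _)
  rw [B.smul_e, ← map_smul] at hcint hcne
  obtain ⟨hmem, hred⟩ := B.red_of_int (c • (x : F')) hcint
  have hint : IntSeries A (B.ex (B.a (x : F'))) := by
    by_contra hnot
    have hcinv : c⁻¹ ∉ A := fun hci => hnot <| by
      have := hcint.smul hci
      rw [B.smul_e, ← map_smul, inv_smul_smul₀ hc0] at this
      exact this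
    have hcA : c ∈ A := (A.mem_or_inv_mem c).resolve_right hcinv
    apply hcne
    rw [B.e_zero, ← hred]
    have : (⟨c • (x : F'), hmem⟩ : B.R.O) = ⟨algebraMap K F' c, B.R.algebraMap_mem ⟨c, hcA⟩⟩ * x :=
      Subtype.ext (by simp [Algebra.smul_def])
    rw [this, map_mul, B.R.red_algebraMap ⟨c, hcA⟩,
      residue_eq_zero_of_inv_notMem B.R.π_surjective hcA hcinv, map_zero, zero_mul, map_zero]
  obtain ⟨hmem', hred'⟩ := B.red_of_int (x : F') hint
  have hb' : B.exk (B.R.red x) = redSeries A π (B.ex (B.a (x : F'))) := hred'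
  refine ⟨fun i => ?_, fun i => ?_⟩
  · show IntSeries A (B.e i (B.a (x : F')))
    revert i
    refine Fin.forall_fin_two.mpr ⟨hint, ?_⟩
    rw [B.e_one_apply, B.ex_w_a]
    exact hint.qExpand q
  · revert i
    refine Fin.forall_fin_two.mpr ⟨hb', ?_⟩
    show B.exk (B.iota (B.R.red x)) = redSeries A π (B.ex (B.w (B.a (x : F'))))
    rw [B.exk_iota, hb', B.ex_w_a, redSeries_qExpand q hint]

omit [IsAlgClosed K] [CharZero K] [IsAlgClosed k] [Fact q.Prime] [CharP k q] in
/-- An element with integral expansion on the side `i` has a reduction there. -/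
theorem HasRed.of_int {i : Fin 2} {x : F} {p : Fk} (hx : IntSeries A (B.e i x))
    (hp : B.exk p = redSeries A π (B.e i x)) : B.HasRed i x p :=
  ⟨x, 1, hx, by rw [map_one]; exact IntSeries.one, by
    rw [map_one, redSeries_one]; exact one_ne_zero, mul_one x, by
    rw [map_one, redSeries_one, mul_one, hp]⟩

omit [IsAlgClosed K] [CharZero K] [IsAlgClosed k] [Fact q.Prime] [CharP k q] in
/-- A glued point is not a point `u` separated by a section `(b, 0)`. -/
theorem IsGluing.ne_of_section {S : Finset (Place k Fk)} {m₀ : ℕ} (hS : B.IsGluing S m₀)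
    {G : F} {m : ℕ} (hG : G ∈ riemannRochSpace (B.cuspDiv m)) {b : Fk}
    (hred : B.IsRed G ![b, 0]) {u : Place k Fk} (hb : b ≠ 0) (hu : u.ord b = 0) :
    u ∉ S := by
  intro hQ
  have hmem : ![b, 0] ∈ B.fibreSections (max m m₀) :=
    ⟨G, riemannRochSpace_mono (B.cuspDiv_mono (le_max_left _ _)) hG, hred⟩
  have h := ((hS.mem_iff _ (le_max_right _ _) _).mp hmem).2 u hQ
  have hz : placeVal (B.frobq • u) (0 : Fk) = 0 := placeVal_zero (B.rrk.deg_eq_one _)
  have hmem' : b ∈ u.toValuationSubring := by rw [mem_iff_ord_nonneg _ hb, hu]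
  rw [show (![b, 0] : Fin 2 → Fk) 1 = 0 from rfl, hz,
    show (![b, 0] : Fin 2 → Fk) 0 = b from rfl,
    placeVal_eq_zero_iff (B.rrk.deg_eq_one _) hmem'] at h
  rcases h with h | h
  · exact hb h
  · omega

omit [IsAlgClosed K] [IsAlgClosed k] [CharP k q] in
/-- A pole `u ≠ ∞` of the reduction `jk` of `jx` is not glued, when some `H` with reduction
`(h, 0)` becomes regular off the two cusps after multiplying by lifts vanishing to order `(q - 1)`
times the pole order of `jx`, and `h` has that pole order at `u`. -/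
theorem IsGluing.notMem_of_pole {S : Finset (Place k Fk)} {m₀ : ℕ} (hS : B.IsGluing S m₀)
    {r : Place K F' → Place k Fk}
    (hr : ∀ D : Divisor K F', 2 * (g : ℤ) ≤ Divisor.degree D →
      B.R.Reduces D (Finsupp.mapDomain r D))
    (hrinf : r B.inf = B.infk) {jx : F'} {jk : Fk}
    (hpole : Finsupp.mapDomain r (B.rr'.poleDiv jx) = B.rrk.poleDiv jk) {H : F} {h : Fk}
    (hred : B.IsRed H ![h, 0]) (hh : h ≠ 0)
    (hmul : ∀ (x : F') (d : ℕ), x ≠ 0 → x ∈ riemannRochSpace (Finsupp.single B.inf (d : ℤ)) →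
      (∀ c, c ≠ B.inf → ((q : ℤ) - 1) * max (-c.ord jx) 0 ≤ c.ord x) →
      ∃ l, B.a x * H ∈ riemannRochSpace (B.cuspDiv l))
    {u : Place k Fk} (hu : u.ord jk < 0) (hu' : u ≠ B.infk)
    (hord : u.ord h = ((q : ℤ) - 1) * u.ord jk) : u ∉ S := by
  classical
  have hq1 : (1 : ℤ) ≤ q := by exact_mod_cast NeZero.pos q
  obtain ⟨Pn, hPn⟩ := Int.eq_ofNat_of_zero_le
    (mul_nonneg (sub_nonneg.mpr hq1) (B.rr'.degree_nonneg (B.rr'.poleDiv_nonneg jx)))
  set D := Finsupp.single B.inf ((2 * g + Pn : ℕ) : ℤ) - ((q : ℤ) - 1) • B.rr'.poleDiv jx with hD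
  have hdegD : Divisor.degree D = 2 * (g : ℤ) := by
    rw [hD, map_sub, map_zsmul, B.rr'.degree_single_eq, smul_eq_mul, hPn]
    push_cast
    ring
  have hrD : Finsupp.mapDomain r D = Finsupp.single B.infk ((2 * g + Pn : ℕ) : ℤ) -
      ((q : ℤ) - 1) • B.rrk.poleDiv jk := by
    rw [hD, sub_eq_add_neg, ← neg_smul, Finsupp.mapDomain_add, Finsupp.mapDomain_smul,
      Finsupp.mapDomain_single, hpole, hrinf, neg_smul, ← sub_eq_add_neg]
  have hR := hr D hdegD.ge
  obtain ⟨b, hb0, hbmem, hbord⟩ := B.rrk.exists_ord_eq_neg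
    (D := Finsupp.mapDomain r D) (by rw [hR.degree_eq, hdegD]) u
  obtain ⟨x, hxD, hxb⟩ := hR.surj b hbmem
  have hx0 : (x : F') ≠ 0 := fun h => hb0 (by
    rw [← hxb, show x = 0 from Subtype.ext h, map_zero])
  have hxinf : (x : F') ∈ riemannRochSpace (Finsupp.single B.inf ((2 * g + Pn : ℕ) : ℤ)) :=
    riemannRochSpace_mono (sub_le_self _ (Finsupp.le_def.mpr fun c => by
      rw [Finsupp.smul_apply, smul_eq_mul, Finsupp.zero_apply]
      exact mul_nonneg (sub_nonneg.mpr hq1)
        (Finsupp.le_def.mp (B.rr'.poleDiv_nonneg jx) c))) hxD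
  obtain ⟨l, hGmem⟩ := hmul x _ hx0 hxinf fun c hc => by
    have h := (mem_riemannRochSpace_iff.mp hxD c).resolve_left hx0
    rw [hD, Finsupp.sub_apply, Finsupp.smul_apply, Finsupp.single_eq_of_ne hc,
      PlaceRed.RRCurve.poleDiv_apply, smul_eq_mul] at h
    omega
  have hax := B.isRed_a_of_red hxinf (by rw [hxb]; exact hb0)
  rw [hxb] at hax
  have hredG := B.isRed_mul hax hred
  rw [show (![b, B.iota b] : Fin 2 → _) * ![h, 0] = ![b * h, 0] from
    funext (Fin.forall_fin_two.mpr ⟨rfl, mul_zero _⟩)] at hredG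
  refine IsGluing.ne_of_section B hS hGmem hredG (mul_ne_zero hb0 hh) ?_
  rw [u.ord_mul hb0 hh, hbord, hrD, hord, Finsupp.sub_apply, Finsupp.smul_apply,
    Finsupp.single_eq_of_ne hu', PlaceRed.RRCurve.poleDiv_apply, smul_eq_mul,
    max_eq_left (by omega)]
  ring

end BadFibre

end FLTA.BadRed

end
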