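import Fermat.Agent.Igusa.Degree
import Fermat.Agent.BadRed.SeriesPlace
import Fermat.Agent.BadRed.Cusps
import Fermat.Agent.BadRed.Modular

/-!
# The cusps of squarefree level in any characteristic prime to the level

For `M = A * B` squarefree with `M ≠ 0` in `K`, the field of level `M` embeds in `K((t))` with
`j ↦ j(t^B)` and `j_M ↦ j(t^A)`; so it has a place where `j` has order `-B`.
-/

set_option autoImplicit false

noncomputable section

open AlgebraicCurve ModularCurve IntermediateField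

namespace FLTA.BadRed.Ramified

open FLTA.Igusa

set_option maxHeartbeats 150000

variable (K : Type) [Field K]

/-- `Φ_p(j(t^(dp)), j(t^d)) = 0`. -/
theorem modPoly_eval_qExpand_swap (p : ℕ) [NeZero p] (hp : p.Prime) (d : ℕ) [NeZero d] :
    (modPoly p hp).eval₂ (Polynomial.aeval (R := ℤ) (qExpand K (d * p) (jqModC K))).toRingHom
      (qExpand K d (jqModC K)) = 0 := by
  have h := congrArg (qExpand K d) (modPoly_eval_jp_swap K p hp)
  rw [map_zero, Polynomial.hom_eval₂, jqNModC] at h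
  convert h using 2
  exact intPoly_hom_ext (by simp [qExpand_qExpand])

/-- Extending an embedding to a simple extension by a root. -/
theorem exists_algHom_adjoin_root {K Ω Ω' : Type*} [Field K] [Field Ω] [Algebra K Ω] [Field Ω']
    [Algebra K Ω'] (E E' : IntermediateField K Ω) (φ : E →ₐ[K] Ω') {x : Ω} (hint : IsIntegral E x)
    (hmem : (IntermediateField.adjoin E {x}).restrictScalars K = E') {y : Ω'}
    (hroot : (minpoly E x).eval₂ φ.toRingHom y = 0) :
    ∃ ψ : E' →ₐ[K] Ω', (∀ (e : E) (he : (e : Ω) ∈ E'), ψ ⟨e, he⟩ = φ e) ∧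
      ∀ hx : x ∈ E', ψ ⟨x, hx⟩ = y := by
  subst hmem
  let g : E⟮x⟯ →+* Ω' :=
    (AdjoinRoot.lift φ.toRingHom y hroot).comp
      (adjoinRootEquivAdjoin E hint).symm.toAlgHom.toRingHom
  have hg : ∀ e : E, g (algebraMap E E⟮x⟯ e) = φ e := fun e => by
    show AdjoinRoot.lift _ _ hroot ((adjoinRootEquivAdjoin E hint).symm (algebraMap E _ e)) = _
    rw [AlgEquiv.commutes, AdjoinRoot.algebraMap_eq, AdjoinRoot.lift_of]
    rfl
  refine ⟨AlgHom.mk (show (E⟮x⟯.restrictScalars K) →+* Ω' from g)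
      (fun c => (hg (algebraMap K E c)).trans (φ.commutes c)),
    fun e he => hg e, fun hx => ?_⟩
  show g (AdjoinSimple.gen E x) = y
  show AdjoinRoot.lift _ _ hroot ((adjoinRootEquivAdjoin E hint).symm (AdjoinSimple.gen E x)) = _
  rw [← adjoinRootEquivAdjoin_apply_root E hint, AlgEquiv.symm_apply_apply, AdjoinRoot.lift_root]

theorem qExpand_congr_level {R : Type*} [CommRing R] {a b : ℕ} [NeZero a] [NeZero b] (h : a = b)
    (x : LaurentSeries R) : qExpand R a x = qExpand R b x := by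
  subst h; rfl

theorem qExpand_qExpand_comm {R : Type} [Field R] (c d : ℕ) [NeZero c] [NeZero d] :
    qExpandAlgHomC R c (qExpand R d (jqModC R)) = qExpand R (d * c) (jqModC R) := by
  show qExpand R c (qExpand R d (jqModC R)) = _
  rw [qExpand_qExpand]
  exact qExpand_congr_level (mul_comm c d) _

/-- Prescribing the image of a new generator: a root of the specialised modular equation. -/
theorem exists_extend_step (M r : ℕ) [NeZero M] [NeZero r] [NeZero (M * r)] (hr : r.Prime)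
    (hrM : ¬ r ∣ M) (hK : ((M * r : ℕ) : K) ≠ 0)
    (φ : modularFunctionFieldFullC K M →ₐ[K] LaurentSeries K) (y : LaurentSeries K)
    (hy : (modPoly r hr).eval₂
      (Polynomial.aeval (R := ℤ) (φ (jEl M M dvd_rfl))).toRingHom y = 0) :
    ∃ ψ : modularFunctionFieldFullC K (M * r) →ₐ[K] LaurentSeries K,
      (∀ (x : modularFunctionFieldFullC K M) (hx : (x : LaurentSeries K) ∈
          modularFunctionFieldFullC K (M * r)), ψ ⟨x, hx⟩ = φ x) ∧
      ψ (jEl (M * r) (M * r) dvd_rfl) = y := by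
  have hMK : (M : K) ≠ 0 := natCast_ne_zero_of_dvd hK (dvd_mul_right M r)
  have hrK : (r : K) ≠ 0 := natCast_ne_zero_of_dvd hK (dvd_mul_left r M)
  let E := modularFunctionFieldFullC K M
  set x := qExpand K (M * r) (jqModC K) with hxdef
  let Q : Polynomial E :=
    (modPoly r hr).map (Polynomial.aeval (R := ℤ) (jEl (K := K) M M dvd_rfl)).toRingHom
  have hxQ : Polynomial.aeval x Q = 0 := by
    rw [Polynomial.aeval_def, Polynomial.eval₂_map, hxdef]
    convert modPoly_eval_qExpand K r hr M using 2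
    exact intPoly_hom_ext (by simp [E, coe_jEl])
  have hint : IsIntegral E x := ⟨Q, (modPoly_monic r hr).map _, hxQ⟩
  obtain ⟨-, W, hW⟩ := relfinrank_and_fricke K M hMK
  obtain ⟨hdeg, -⟩ := step_fricke M r hr hMK hrK W hW
    (fun h => qExpand_prime_notMem_full K M r hr h hMK hrK)
  rw [if_neg hrM] at hdeg
  have hmin : minpoly E x = Q := by
    refine (Polynomial.eq_of_monic_of_dvd_of_natDegree_le (minpoly.monic hint)
      ((modPoly_monic r hr).map _) (minpoly.dvd _ _ hxQ) ?_).symm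
    rw [(modPoly_monic r hr).natDegree_map, modPoly_natDegree, hdeg]
  have hroot : (minpoly E x).eval₂ φ.toRingHom y = 0 := by
    rw [hmin, Polynomial.eval₂_map, comp_aeval_int (iA := inferInstance)]
    exact hy
  obtain ⟨ψ, h1, h2⟩ := exists_algHom_adjoin_root E (modularFunctionFieldFullC K (M * r)) φ hint
    (restrictScalars_adjoin_jMq M r hK) hroot
  exact ⟨ψ, fun z hz => h1 z hz, h2 _⟩

/-- The expansions at cusps over a base level `N₀`: on that level they are `t ↦ t ^ (B c)`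
substituted in a given expansion `e₀`. -/
theorem exists_cuspEmbedding_over (N₀ A₀ B₀ : ℕ) [NeZero N₀] [NeZero A₀] [NeZero B₀]
    (e₀ : modularFunctionFieldFullC K N₀ →ₐ[K] LaurentSeries K)
    (he1 : e₀ (jEl N₀ 1 (one_dvd N₀)) = jExp 1 B₀)
    (heN : e₀ (jEl N₀ N₀ dvd_rfl) = jExp 1 A₀) :
    ∀ (N : ℕ) [NeZero N], Squarefree N → (N : K) ≠ 0 →
      ∀ (A B c : ℕ) [NeZero B] [NeZero c], N = N₀ * (A * B) →
        ∃ φ : modularFunctionFieldFullC K N →ₐ[K] LaurentSeries K,
          φ (jEl N 1 (one_dvd N)) = jExp 1 (B₀ * B * c) ∧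
          φ (jEl N N dvd_rfl) = jExp 1 (A₀ * A * c) ∧
          ∀ (x : modularFunctionFieldFullC K N₀)
            (hx : (x : LaurentSeries K) ∈ modularFunctionFieldFullC K N),
            φ ⟨x, hx⟩ = qExpand K (B * c) (e₀ x) := by
  intro N hN0 hsq hK
  induction N using Nat.strong_induction_on generalizing hN0 with
  | _ N ih =>
    intro A B c _ _ hN
    rcases eq_or_ne (A * B) 1 with hAB | hAB
    · obtain ⟨rfl, rfl⟩ :=
        And.intro (Nat.eq_one_of_mul_eq_one_right hAB) (Nat.eq_one_of_mul_eq_one_left hAB)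
      rw [one_mul, mul_one] at hN
      subst hN
      refine ⟨(qExpandAlgHomC K c).comp e₀, ?_, ?_, fun x hx => ?_⟩
      · rw [mul_one, AlgHom.comp_apply, he1, jExp_one, jExp_one]
        exact qExpand_qExpand_comm c B₀
      · rw [mul_one, AlgHom.comp_apply, heN, jExp_one, jExp_one]
        exact qExpand_qExpand_comm c A₀
      · rw [qExpand_congr_level (one_mul c)]
        rfl
    obtain ⟨r, hr, hrAB⟩ := Nat.exists_prime_and_dvd hAB
    have : NeZero r := ⟨hr.ne_zero⟩
    obtain ⟨M', rfl⟩ : ∃ M', N = M' * r := ⟨N / r, (Nat.div_mul_cancel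
      (hN ▸ dvd_mul_of_dvd_right hrAB N₀)).symm⟩
    have : NeZero M' := ⟨left_ne_zero_of_mul hN0.out⟩
    have hsq' : Squarefree M' := hsq.of_mul_left
    have hrM' : ¬ r ∣ M' := fun h =>
      hr.ne_one (Nat.isUnit_iff.mp (hsq r (mul_dvd_mul_right h r)))
    have hlt : M' < M' * r := (lt_mul_iff_one_lt_right (NeZero.pos M')).mpr hr.one_lt
    have hK' := natCast_ne_zero_of_dvd hK (dvd_mul_right M' r)
    rcases (hr.dvd_mul).mp hrAB with hA | hB
    · obtain ⟨A', rfl⟩ : ∃ A', A = A' * r := ⟨A / r, (Nat.div_mul_cancel hA).symm⟩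
      have hN' : M' = N₀ * (A' * B) := Nat.eq_of_mul_eq_mul_right hr.pos (by rw [hN]; ring)
      have : NeZero A' := ⟨fun h0 => NeZero.ne M' (by rw [hN', h0, zero_mul, mul_zero])⟩
      obtain ⟨φ, h1, h2, h3⟩ := ih M' hlt hsq' hK' A' B c hN'
      obtain ⟨ψ, hψ, hψy⟩ := exists_extend_step K M' r hr hrM' hK φ (jExp 1 (A₀ * (A' * r) * c)) (by
        rw [h2, jExp_one, show A₀ * (A' * r) * c = A₀ * A' * c * r by ring, jExp_one]
        exact modPoly_eval_qExpand K r hr (A₀ * A' * c))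
      refine ⟨ψ, (hψ (jEl M' 1 (one_dvd M')) _).trans h1, hψy, fun x hx => ?_⟩
      have hxM : (x : LaurentSeries K) ∈ modularFunctionFieldFullC K M' :=
        mem_full_of_dvd ⟨A' * B, hN'⟩ x.2
      exact (hψ ⟨x, hxM⟩ hx).trans (h3 x hxM)
    · obtain ⟨B', rfl⟩ : ∃ B', B = B' * r := ⟨B / r, (Nat.div_mul_cancel hB).symm⟩
      have hN' : M' = N₀ * (A * B') := Nat.eq_of_mul_eq_mul_right hr.pos (by rw [hN]; ring)
      have : NeZero A := ⟨fun h0 => NeZero.ne M' (by rw [hN', h0, zero_mul, mul_zero])⟩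
      have : NeZero B' := ⟨fun h0 => NeZero.ne M' (by rw [hN', h0, mul_zero, mul_zero])⟩
      obtain ⟨φ, h1, h2, h3⟩ := ih M' hlt hsq' hK' A B' (c * r) hN'
      obtain ⟨ψ, hψ, hψy⟩ := exists_extend_step K M' r hr hrM' hK φ (jExp 1 (A₀ * A * c)) (by
        rw [h2, show A₀ * A * (c * r) = A₀ * A * c * r by ring, jExp_one, jExp_one]
        exact modPoly_eval_qExpand_swap K r hr (A₀ * A * c))
      refine ⟨ψ, (hψ (jEl M' 1 (one_dvd M')) _).trans (h1.trans (by ring_nf)), hψy, fun x hx => ?_⟩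
      have hxM : (x : LaurentSeries K) ∈ modularFunctionFieldFullC K M' :=
        mem_full_of_dvd ⟨A * B', hN'⟩ x.2
      rw [(hψ ⟨x, hxM⟩ hx).trans (h3 x hxM)]
      exact qExpand_congr_level (by ring) _

theorem order_zpow' {L : Type*} [Field L] {x : LaurentSeries L} (hx : x ≠ 0) (j : ℤ) :
    (x ^ j).order = j * x.order := by
  induction j using Int.induction_on with
  | zero => simp
  | succ j ih => rw [zpow_add_one₀ hx, HahnSeries.order_mul (zpow_ne_zero _ hx) hx, ih]; ring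
  | pred j ih =>
    have h : x ^ (-(j : ℤ)) = x ^ (-(j : ℤ) - 1) * x := by
      rw [← zpow_add_one₀ hx, sub_add_cancel]
    rw [h, HahnSeries.order_mul (zpow_ne_zero _ hx) hx] at ih
    linear_combination ih

theorem order_jExp_one (e : ℕ) [NeZero e] : (jExp (1 : Kˣ) e).order = -(e : ℤ) := by
  rw [jExp_one, BadFibre.order_qExpand_eq, order_jqModC, mul_neg_one]

/-- Expansions with an element of order `±1` where `j` has order `-(B₀ B)` and the functions of the
base level `B` times the order of their expansion `e₀`. -/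
theorem exists_cuspExpansion_over (N₀ A₀ B₀ : ℕ) [NeZero N₀] [NeZero A₀] [NeZero B₀]
    (e₀ : modularFunctionFieldFullC K N₀ →ₐ[K] LaurentSeries K)
    (he1 : e₀ (jEl N₀ 1 (one_dvd N₀)) = jExp 1 B₀)
    (heN : e₀ (jEl N₀ N₀ dvd_rfl) = jExp 1 A₀) (hAB₀ : A₀ * B₀ = N₀)
    (N : ℕ) [NeZero N] (hsq : Squarefree N) (hK : (N : K) ≠ 0) (A B : ℕ)
    (hN : N = N₀ * (A * B)) :
    ∃ φ : modularFunctionFieldFullC K N →ₐ[K] LaurentSeries K,
      (∃ x, x ≠ 0 ∧ ((φ x).order = 1 ∨ (φ x).order = -1)) ∧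
      (φ (jEl N 1 (one_dvd N))).order = -((B₀ * B : ℕ) : ℤ) ∧
      ∀ (x : modularFunctionFieldFullC K N₀)
        (hx : (x : LaurentSeries K) ∈ modularFunctionFieldFullC K N),
        (φ ⟨x, hx⟩).order = (B : ℤ) * (e₀ x).order := by
  have : NeZero B := ⟨fun h => NeZero.ne N (by rw [hN, h, mul_zero, mul_zero])⟩
  have : NeZero A := ⟨fun h => NeZero.ne N (by rw [hN, h, zero_mul, mul_zero])⟩
  obtain ⟨φ, h1, h2, h3⟩ := exists_cuspEmbedding_over K N₀ A₀ B₀ e₀ he1 heN N hsq hK A B 1 hN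
  rw [mul_one] at h1 h2
  have hco : IsCoprime ((A₀ * A : ℕ) : ℤ) (B₀ * B : ℕ) :=
    Int.isCoprime_iff_nat_coprime.mpr (Nat.coprime_of_squarefree_mul
      ((show A₀ * A * (B₀ * B) = N by rw [hN, ← hAB₀]; ring).symm ▸ hsq))
  obtain ⟨a, b, hab⟩ := hco
  have hφ : ∀ x, φ x ≠ 0 → x ≠ 0 := fun x h h0 => h (by rw [h0, map_zero])
  have hne : ∀ e : ℕ, [NeZero e] → jExp (1 : Kˣ) e ≠ 0 := fun e _ h0 => by
    have h := order_jExp_one K e
    rw [h0, HahnSeries.order_zero] at h
    have := NeZero.pos e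
    omega
  have h10 := hφ _ (h1.symm ▸ hne (B₀ * B))
  have hM0 := hφ _ (h2.symm ▸ hne (A₀ * A))
  refine ⟨φ, ⟨jEl N 1 (one_dvd N) ^ b * jEl N N dvd_rfl ^ a,
      mul_ne_zero (zpow_ne_zero _ h10) (zpow_ne_zero _ hM0), Or.inr (by
        rw [map_mul, map_zpow₀, map_zpow₀, h1, h2,
          HahnSeries.order_mul (zpow_ne_zero _ (hne _)) (zpow_ne_zero _ (hne _)),
          order_zpow' (hne _), order_zpow' (hne _), order_jExp_one, order_jExp_one]
        linear_combination -hab)⟩, by rw [h1, order_jExp_one], fun x hx => ?_⟩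
  rw [h3 x hx, BadFibre.order_qExpand_eq, mul_one]

/-- A place of level `M` where `j` has order `-B`, for `B ∣ M`. -/
theorem exists_cuspPlace (M : ℕ) [NeZero M] (hsq : Squarefree M) (hK : (M : K) ≠ 0) {B : ℕ}
    (hB : B ∣ M) :
    ∃ v : Place K (modularFunctionFieldFullC K M), v.ord (jEl M 1 (one_dvd M)) = -(B : ℤ) := by
  obtain ⟨A, hA⟩ := hB
  obtain ⟨φ, hx, hj, -⟩ := exists_cuspExpansion_over K 1 1 1 (modularFunctionFieldFullC K 1).val
    (by rw [IntermediateField.coe_val, coe_jEl, jExp_one])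
    (by rw [IntermediateField.coe_val, coe_jEl, jExp_one]) (one_mul 1) M hsq hK A B
    (by rw [one_mul, hA, mul_comm])
  obtain ⟨v, hv⟩ := FLTA.BadRed.exists_seriesPlace φ hx
  have : 0 < B := Nat.pos_of_ne_zero fun h => NeZero.ne M (by rw [hA, h, zero_mul])
  have hne : φ (jEl M 1 (one_dvd M)) ≠ 0 := fun h => by
    rw [h, HahnSeries.order_zero] at hj
    push_cast at hj
    omega
  exact ⟨v, by rw [hv _ (fun h => hne (by rw [h, map_zero])), hj, one_mul]⟩

/-- **Enough cusps.**  Besides a place where `j` has order `-1` there are `d(M) - 1` poles of `j`,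
of orders dividing `M`. -/
theorem exists_poles_fullC (M : ℕ) [NeZero M] (hsq : Squarefree M) (hK : (M : K) ≠ 0)
    (v₀ : Place K (modularFunctionFieldFullC K M))
    (hv₀ : v₀.ord (jEl M 1 (one_dvd M)) = -1) :
    ∃ U : Finset (Place K (modularFunctionFieldFullC K M)), U.card + 1 = M.divisors.card ∧
      ∀ u ∈ U, u ≠ v₀ ∧ ∃ B : ℕ, B ∣ M ∧ u.ord (jEl M 1 (one_dvd M)) = -(B : ℤ) := by
  classical
  choose v hv using fun B (hB : B ∈ M.divisors.erase 1) =>
    exists_cuspPlace K M hsq hK (Nat.dvd_of_mem_divisors (Finset.mem_of_mem_erase hB))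
  refine ⟨(M.divisors.erase 1).attach.image fun B => v B.1 B.2, ?_, fun u hu => ?_⟩
  · rw [Finset.card_image_of_injective _ fun B B' h => ?_, Finset.card_attach,
      Finset.card_erase_add_one (Nat.one_mem_divisors.mpr (NeZero.ne M))]
    have h1 := hv B.1 B.2
    rw [show v B.1 B.2 = v B'.1 B'.2 from h, hv B'.1 B'.2] at h1
    exact Subtype.ext (by omega)
  · obtain ⟨⟨B, hB⟩, -, rfl⟩ := Finset.mem_image.mp hu
    refine ⟨fun h => ?_, B, Nat.dvd_of_mem_divisors (Finset.mem_of_mem_erase hB), hv B hB⟩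
    have h1 := hv B hB
    simp only at h
    rw [h, hv₀] at h1
    exact Finset.ne_of_mem_erase hB (by omega)

end FLTA.BadRed.Ramified

end
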