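import Fermat.Agent.BadRed.Toric.Bounded
import Fermat.Agent.BadRed.Residue
import Fermat.Agent.BadRed.Kummer
import Fermat.Agent.Curves.RRSpace

/-!
# Reductions of scaled Riemann-Roch spaces

For a divisor `E` and scalars `δ`, the pairs of reductions of `(δ 0 • G, δ 1 • G)`, `G ∈ L(E)`,
form a space of the same dimension as `L(E)`.  No assumption on `E` is needed.
-/

set_option autoImplicit false

noncomputable section

open AlgebraicCurve FLTA.Curves

namespace FLTA.BadRed.BadFibre

variable {K : Type*} [Field K] [IsAlgClosed K] [CharZero K] {A : ValuationSubring K}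
  {k : Type*} [Field k] [IsAlgClosed k] {π : A →+* k}
  {q : ℕ} [NeZero q] [Fact q.Prime] [CharP k q]
  {F : Type*} [Field F] [Algebra K F] {F' : Type*} [Field F'] [Algebra K F']
  {Fk : Type*} [Field Fk] [Algebra k Fk] {g gF : ℕ} {B : BadFibre A π q F F' Fk g gF}

omit [IsAlgClosed K] [CharZero K] [IsAlgClosed k] [Fact q.Prime] [CharP k q]

theorem hasRed_zero (i : Fin 2) : B.HasRed i 0 0 := by
  refine ⟨0, 1, ?_, ?_, ?_, zero_mul 1, ?_⟩
  · rw [map_zero]; exact IntSeries.zero
  · rw [map_one]; exact IntSeries.one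
  · rw [map_one, redSeries_one]; exact one_ne_zero
  · rw [map_zero, map_zero, redSeries_zero, zero_mul]

theorem hasRed_one (i : Fin 2) : B.HasRed i 1 1 := by
  refine ⟨1, 1, ?_, ?_, ?_, one_mul 1, ?_⟩
  · rw [map_one]; exact IntSeries.one
  · rw [map_one]; exact IntSeries.one
  · rw [map_one, redSeries_one]; exact one_ne_zero
  · rw [map_one, map_one, redSeries_one, one_mul]

theorem HasRed.add {i : Fin 2} {x y : F} {p r : Fk} (hx : B.HasRed i x p) (hy : B.HasRed i y r) :
    B.HasRed i (x + y) (p + r) := by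
  obtain ⟨g₁, h₁, hg, hh, hh0, hgh, hp⟩ := hx
  obtain ⟨g₂, h₂, hg', hh', hh0', hgh', hr⟩ := hy
  refine ⟨g₁ * h₂ + g₂ * h₁, h₁ * h₂, ?_, ?_, ?_, ?_, ?_⟩
  · rw [map_add, map_mul, map_mul]; exact (hg.mul hh').add (hg'.mul hh)
  · rw [map_mul]; exact hh.mul hh'
  · rw [map_mul, redSeries_mul hh hh']; exact mul_ne_zero hh0 hh0'
  · rw [← hgh, ← hgh']; ring
  · rw [map_add B.exk, map_mul (B.e i) h₁ h₂, map_add (B.e i), map_mul (B.e i) g₁ h₂,
      map_mul (B.e i) g₂ h₁, redSeries_mul hh hh', redSeries_add (hg.mul hh') (hg'.mul hh),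
      redSeries_mul hg hh', redSeries_mul hg' hh, ← hp, ← hr]
    ring

theorem HasRed.pow {i : Fin 2} {x : F} {p : Fk} (hx : B.HasRed i x p) :
    ∀ j : ℕ, B.HasRed i (x ^ j) (p ^ j)
  | 0 => by simpa using hasRed_one i
  | j + 1 => by rw [pow_succ, pow_succ]; exact (hx.pow j).mul hx

/-- An element with integral expansion reduces to its reduction. -/
theorem hasRed_of_intSeries {i : Fin 2} {x : F} {p : Fk} (hx : IntSeries A (B.e i x))
    (hp : B.exk p = redSeries A π (B.e i x)) : B.HasRed i x p := by
  refine ⟨x, 1, hx, ?_, ?_, mul_one x, ?_⟩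
  · rw [map_one]; exact IntSeries.one
  · rw [map_one, redSeries_one]; exact one_ne_zero
  · rw [map_one, redSeries_one, mul_one, hp]

/-- A bounded expansion of an element with a reduction is integral. -/
theorem HasRed.intSeries {i : Fin 2} {x : F} {p : Fk} (hx : B.HasRed i x p)
    (hb : BddSeries A (B.e i x)) :
    IntSeries A (B.e i x) ∧ redSeries A π (B.e i x) = B.exk p := by
  obtain ⟨g₁, h₁, hg, hh, hh0, hgh, hp⟩ := hx
  have hi : IntSeries A (B.e i x) := by
    refine intSeries_right_of_mul (π := π) B.R.π_surjective B.discrete hh hh0 hb (B.fgSeries_e i x) ?_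
    rw [← map_mul, mul_comm, hgh]
    exact hg
  refine ⟨hi, mul_right_cancel₀ hh0 ?_⟩
  rw [hp, ← hgh, map_mul, redSeries_mul hi hh]

/-- A constant with a non-zero reduction is a unit. -/
theorem HasRed.const_unit {i : Fin 2} {a : K} {p : Fk} (hx : B.HasRed i (algebraMap K F a) p)
    (hp : p ≠ 0) : a ∈ A ∧ a⁻¹ ∈ A := by
  have key : ∀ (b : K) (r : Fk), B.HasRed i (algebraMap K F b) r → b ∈ A := fun b r hb => by
    have he : B.e i (algebraMap K F b) = HahnSeries.single 0 b := by
      rw [AlgHom.commutes, ModularCurve.algebraMap_laurentSeries_eq_single]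
    have hbd : BddSeries A (B.e i (algebraMap K F b)) := by
      rw [he]
      have := (BddSeries.of_int (IntSeries.one (A := A))).smul b
      simpa [← HahnSeries.C_mul_eq_smul, HahnSeries.C_apply] using this
    have h := (hb.intSeries hbd).1 0
    rw [he, HahnSeries.coeff_single_same] at h
    exact h
  refine ⟨key a p hx, key a⁻¹ p⁻¹ ?_⟩
  rw [map_inv₀]
  exact hx.inv hp

/-- The scalings giving non-zero reductions differ by units. -/
theorem HasRed.scale_unique {i : Fin 2} {x : F} {a b : K} {p r : Fk}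
    (ha : B.HasRed i (a • x) p) (hb : B.HasRed i (b • x) r) (hp : p ≠ 0) (hr : r ≠ 0) :
    a / b ∈ A ∧ b / a ∈ A := by
  have hax := ha.ne_zero hp
  have hbx := hb.ne_zero hr
  have hx0 : x ≠ 0 := fun h => hax (by rw [h, smul_zero])
  have hb0 : b ≠ 0 := fun h => hbx (by rw [h, zero_smul])
  have h : B.HasRed i (algebraMap K F (a / b)) (p * r⁻¹) := by
    have e : algebraMap K F (a / b) = a • x * (b • x)⁻¹ := by
      have hb' : algebraMap K F b ≠ 0 := (map_ne_zero _).mpr hb0
      rw [Algebra.smul_def, Algebra.smul_def, map_div₀]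
      field_simp
    rw [e]
    exact ha.mul (hb.inv hr)
  obtain ⟨h1, h2⟩ := h.const_unit (mul_ne_zero hp (inv_ne_zero hr))
  exact ⟨h1, by rwa [inv_div] at h2⟩

section RedSpace

variable (B) (δ : Fin 2 → K) (E : Divisor K F)

/-- The reductions of `δ • G`, `G ∈ L(E)`. -/
def redSpace : Submodule k (Fin 2 → Fk) where
  carrier := {y | ∃ G ∈ riemannRochSpace E, ∀ i, B.HasRed i (δ i • G) (y i)}
  add_mem' := by
    rintro _ _ ⟨G, hG, h⟩ ⟨G', hG', h'⟩
    exact ⟨G + G', add_mem hG hG', fun i => by rw [smul_add]; exact (h i).add (h' i)⟩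
  zero_mem' := ⟨0, zero_mem _, fun i => by rw [smul_zero]; exact hasRed_zero i⟩
  smul_mem' := by
    rintro c y ⟨G, hG, h⟩
    obtain ⟨a, rfl⟩ := B.R.π_surjective c
    exact ⟨(a : K) • G, Submodule.smul_mem _ _ hG, fun i => by
      rw [smul_comm]
      exact (h i).smul a⟩

variable {B δ E}

theorem mem_redSpace {y : Fin 2 → Fk} :
    y ∈ B.redSpace δ E ↔ ∃ G ∈ riemannRochSpace E, ∀ i, B.HasRed i (δ i • G) (y i) := Iff.rfl

end RedSpace

section Dimension

variable [IsAlgClosed K] [CharZero K] [IsAlgClosed k] [Fact q.Prime] [CharP k q]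

/-- The space of reductions has full dimension. -/
theorem finrank_redSpace {δ : Fin 2 → K} (hδ : ∀ i, δ i ≠ 0) (E : Divisor K F) :
    FiniteDimensional k (B.redSpace δ E) ∧
      Module.finrank k (B.redSpace δ E) = Module.finrank K (riemannRochSpace E) := by
  classical
  have hq : 2 ≤ q := (Fact.out : q.Prime).two_le
  -- a section with `h * L(E) ⊆ L(cusps)`
  set l : ℕ := gF + (Divisor.degree E).toNat with hl
  haveI := B.rrF.finiteDimensional (B.cuspDiv l - E)
  have hdegE : gF + (Divisor.degree E).toNat = l := rfl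
  have hdim := B.rrF.finrank_eq (B.cuspDiv l - E) (by rw [map_sub, degree_cuspDiv]; omega)
  rw [map_sub, degree_cuspDiv] at hdim
  obtain ⟨h, hh, hh0⟩ := Submodule.exists_mem_ne_zero_of_ne_bot
    (p := riemannRochSpace (B.cuspDiv l - E)) (fun h0 => by
      rw [h0, finrank_bot] at hdim; omega)
  choose a r ha hr hred using fun i => B.exists_hasRed_smul i hh0
  have hbdd : ∀ G ∈ riemannRochSpace E, ∀ i, BddSeries A ((δ i * a i) • B.e i (h * G)) :=
    fun G hG i => (B.bddSeries_e i (m := l) (by
      have := mul_mem_riemannRochSpace hh hG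
      rwa [sub_add_cancel] at this)).smul _
  let tw : F →ₗ[K] (Fin 2 → LaurentSeries K) :=
    { toFun := fun G i => (δ i * a i) • B.e i (h * G)
      map_add' := fun x y => funext fun i => by simp [mul_add, smul_add]
      map_smul' := fun c x => funext fun i => by
        show (δ i * a i) • B.e i (h * c • x) = c • ((δ i * a i) • B.e i (h * x))
        rw [mul_smul_comm, ← B.smul_e, smul_comm] }
  have htw : Function.Injective tw := by
    rw [injective_iff_map_eq_zero]
    intro G hG
    have := congrFun hG 0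
    by_contra hne
    exact smul_ne_zero (mul_ne_zero (hδ 0) (ha 0)) (B.e_ne_zero 0 (mul_ne_zero hh0 hne)) this
  set T := (riemannRochSpace E).map tw with hT
  haveI := B.rrF.finiteDimensional E
  haveI : FiniteDimensional K T := Module.Finite.map _ _
  have hscal : Scalable π T := by
    rintro _ ⟨G, hG, rfl⟩ hne
    exact exists_primitive_multiple B.discrete hne (fun i => hbdd G hG i)
      (fun i => (B.fgSeries_e i _).smul _)
  let readY : (Fin 2 → Fk) →ₗ[k] (Fin 2 → LaurentSeries k) :=
    { toFun := fun y i => B.exk (r i * y i)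
      map_add' := fun y z => funext fun i => by simp [mul_add]
      map_smul' := fun c y => funext fun i => by
        ext j
        simp [Algebra.smul_def, mul_left_comm _ (algebraMap k Fk c),
          ModularCurve.algebraMap_laurentSeries_eq_single] }
  have hreadY : Function.Injective readY := fun y z hyz => funext fun i =>
    mul_left_cancel₀ (hr i) (B.exk.injective (congrFun hyz i))
  have hprod : ∀ (G : F) i, δ i • G * (a i • h) = (δ i * a i) • (h * G) := fun G i => by
    rw [smul_mul_smul_comm, mul_comm G h]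
  have himage : ((B.redSpace δ E).map readY : Set (Fin 2 → LaurentSeries k)) = redSet π T := by
    ext p
    constructor
    · rintro ⟨y, ⟨G, hG, hy⟩, rfl⟩
      have key : ∀ i, IntSeries A (tw G i) ∧ redSeries A π (tw G i) = B.exk (r i * y i) :=
        fun i => by
          have h1 := (hy i).mul (hred i)
          rw [hprod, mul_comm (y i)] at h1
          have h2 := h1.intSeries (by rw [← B.smul_e]; exact hbdd G hG i)
          rw [← B.smul_e] at h2
          exact h2
      exact ⟨_, ⟨G, hG, rfl⟩, fun i => (key i).1, fun i => (key i).2.symm⟩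
    · rintro ⟨_, ⟨G, hG, rfl⟩, hint, hp⟩
      choose z hz using fun i => B.exists_exk_eq_redSeries i (f := h * G) (c := δ i * a i) (hint i)
      refine ⟨fun i => z i / r i, ⟨G, hG, fun i => ?_⟩, funext fun i => ?_⟩
      · have h1 : B.HasRed i ((δ i * a i) • (h * G)) (z i) :=
          hasRed_of_intSeries (by rw [← B.smul_e]; exact hint i) (by rw [← B.smul_e]; exact hz i)
        have h2 := h1.mul ((hred i).inv (hr i))
        rw [← hprod, mul_inv_cancel_right₀ ((hred i).ne_zero (hr i)), ← div_eq_mul_inv] at h2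
        exact h2
      · show B.exk (r i * (z i / r i)) = p i
        rw [mul_div_cancel₀ _ (hr i), hz, hp i]
        rfl
  obtain ⟨h1, h2, h3⟩ := finrank_span_redSet B.R.π_surjective T hscal
  have e : Submodule.span k (redSet π T) = (B.redSpace δ E).map readY :=
    SetLike.coe_injective (h1.trans himage.symm)
  rw [e] at h2 h3
  let eq := Submodule.equivMapOfInjective _ hreadY (B.redSpace δ E)
  refine ⟨Module.Finite.equiv eq.symm, ?_⟩
  rw [eq.finrank_eq, h3, hT,
    ← (Submodule.equivMapOfInjective _ htw (riemannRochSpace E)).finrank_eq]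

end Dimension

end FLTA.BadRed.BadFibre
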