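import Fermat.Agent.BadRed.Ramified.Count
import Fermat.Agent.LevelLowering.HeckeFibre

/-!
# Fixed torsion classes on which Hecke is not Eisenstein are toric

With `H` the eta quotient (valuation difference `e`, divisor at the cusps), every node satisfies
`ord_Q (red H) · vf ≡ e · ord_Q (red f) (mod n)`.  A Hecke operator with `T f = f ^ a · h ^ n`
multiplies `vf` by `l + 1`, so `vf ≡ 0` when `a ≢ l + 1`, and then the reductions of `f` have
divisors divisible by `n`.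
-/

set_option autoImplicit false

noncomputable section

open AlgebraicCurve FLTA.Curves

namespace FLTA.BadRed.BadFibre

variable {K : Type*} [Field K] {A : ValuationSubring K}
  {k : Type*} [Field k] {π : A →+* k} {q : ℕ} [NeZero q]
  {F : Type*} [Field F] [Algebra K F] {F' : Type*} [Field F'] [Algebra K F']
  {Fk : Type*} [Field Fk] [Algebra k Fk] {g gF : ℕ} {B : BadFibre A π q F F' Fk g gF}

/-- Reductions are unique. -/
theorem HasRed.unique {i : Fin 2} {x : F} {p p' : Fk} (h : B.HasRed i x p) (h' : B.HasRed i x p')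
    (hp' : p' ≠ 0) : p = p' := by
  have hx : x ≠ 0 := h'.ne_zero hp'
  have h1 := h.mul (h'.inv hp')
  rw [mul_inv_cancel₀ hx] at h1
  obtain ⟨-, h2⟩ := h1.intSeries (BddSeries.of_int (by rw [map_one]; exact IntSeries.one))
  rw [map_one, redSeries_one, ← map_one B.exk] at h2
  exact eq_of_mul_inv_eq_one (B.exk.injective h2).symm

/-- Two choices of reductions differ by constants. -/
theorem ScaledRed.exists_p_eq {f : F} (d d' : B.ScaledRed f) (i : Fin 2) :
    ∃ u : k, u ≠ 0 ∧ d'.p i = algebraMap k Fk u * d.p i := by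
  obtain ⟨h1, h2⟩ := HasRed.scale_unique (d'.red i) (d.red i) (d'.p_ne i) (d.p_ne i)
  have h := (d.red i).smul ⟨_, h1⟩
  rw [smul_smul, div_mul_cancel₀ _ (d.c_ne i), Algebra.smul_def (π _)] at h
  have hu : π ⟨_, h1⟩ ≠ 0 := fun h0 => by
    have h3 : π ⟨_, h1⟩ * π ⟨_, h2⟩ = 1 := by
      rw [← map_mul, ← map_one π]
      congr 1
      exact Subtype.ext (show d'.c i / d.c i * (d.c i / d'.c i) = (1 : K) by
        rw [div_mul_div_comm, mul_comm (d'.c i), div_self (mul_ne_zero (d.c_ne i) (d'.c_ne i))])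
    rw [h0, zero_mul] at h3
    exact zero_ne_one h3
  exact ⟨_, hu, (d'.red i).unique h (mul_ne_zero ((map_ne_zero _).mpr hu) (d.p_ne i))⟩

theorem ScaledRed.ord_p_eq {f : F} (d d' : B.ScaledRed f) (i : Fin 2) (v : Place k Fk) :
    v.ord (d'.p i) = v.ord (d.p i) := by
  obtain ⟨u, hu, h⟩ := d.exists_p_eq d' i
  rw [h, v.ord_mul ((map_ne_zero _).mpr hu) (d.p_ne i), ord_algebraMap, zero_add]

/-- A scaling of an integer power. -/
theorem ScaledRed.exists_zpow {f : F} (d : B.ScaledRed f) (j : ℤ) :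
    ∃ e : B.ScaledRed (f ^ j), ∀ i, e.p i = d.p i ^ j := by
  obtain ⟨j, rfl | rfl⟩ := Int.eq_nat_or_neg j
  · rw [zpow_natCast]
    exact ⟨d.pow j, fun i => (zpow_natCast _ _).symm⟩
  · rw [zpow_neg, zpow_natCast]
    exact ⟨(d.pow j).inv, fun i => by rw [zpow_neg, zpow_natCast]; rfl⟩

/-- The scaling of a constant. -/
def ScaledRed.const {c : K} (hc : c ≠ 0) : B.ScaledRed (algebraMap K F c) where
  c _ := c⁻¹
  p _ := 1
  p_ne _ := one_ne_zero
  red i := by
    rw [Algebra.smul_def, ← map_mul, inv_mul_cancel₀ hc, map_one]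
    exact hasRed_one i

variable (B) in
/-- A function with scalings of valuation difference `e` whose divisor is supported at the two
cusps and, modulo `n`, at no more places `C` than there are unglued points `U i` where the order of
the reduction is prime to `n`. -/
structure EtaFun (J : B.InertiaSys) (n : ℕ) where
  /-- the function -/
  H : F
  /-- the valuation difference -/
  e : ℤ
  fixed : J.Fixed H
  /-- the other places of the divisor -/
  C : Finset (Place K F)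
  ord_dvd : ∀ v : Place K F, v ≠ B.P 0 → v ≠ B.P 1 → v ∉ C → (n : ℤ) ∣ v.ord H
  diffVal : B.DiffVal H e
  /-- points of the components matching `C` -/
  U : Fin 2 → Finset (Place k Fk)
  card_le : C.card ≤ (U 0).card + (U 1).card
  ne_infk : ∀ i, ∀ u ∈ U i, u ≠ B.infk
  not_node : ∀ (S : Finset (Place k Fk)) (m₀ : ℕ), B.IsGluing S m₀ →
    ∀ i, ∀ u ∈ U i, ∀ Q ∈ S, B.nodePt i Q ≠ u
  coprime : ∀ (dH : B.ScaledRed H) (i : Fin 2), ∀ u ∈ U i,
    IsCoprime (n : ℤ) (u.ord (dH.p i))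

variable [IsAlgClosed K] [CharZero K] [IsAlgClosed k] [Fact q.Prime] [CharP k q]
  {S : Finset (Place k Fk)} {m₀ n : ℕ} {J : B.InertiaSys}

/-- **The congruence at a node.** -/
theorem node_congr (hS : B.IsGluing S m₀) (hnk : (n : k) ≠ 0) (E : B.EtaFun J n) {f : F}
    (hfix : J.Fixed f) (hdvd : B.DvdOffCusps n f) (d : B.ScaledRed f) {vf : ℤ}
    (hvf : B.DiffVal f vf) (dH : B.ScaledRed E.H) {Q : Place k Fk} (hQ : Q ∈ S) :
    (n : ℤ) ∣ Q.ord (dH.p 0) * vf - Q.ord (d.p 0) * E.e := by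
  classical
  have hn : 0 < n := Nat.pos_of_ne_zero fun h => hnk (by rw [h, Nat.cast_zero])
  have hn' : (n : ℤ) ≠ 0 := Int.natCast_ne_zero.mpr hn.ne'
  set a := Q.ord (d.p 0)
  set h := Q.ord (dH.p 0)
  set i := (h % (n : ℤ)).toNat
  set j := ((-a) % (n : ℤ)).toNat
  have hi : (i : ℤ) = h % (n : ℤ) := Int.toNat_of_nonneg (Int.emod_nonneg _ hn')
  have hj : (j : ℤ) = (-a) % (n : ℤ) := Int.toNat_of_nonneg (Int.emod_nonneg _ hn')
  have hci : (n : ℤ) ∣ (i : ℤ) - h := by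
    rw [hi, ← Int.modEq_iff_dvd]
    exact (Int.mod_modEq _ _).symm
  have hcj : (n : ℤ) ∣ (j : ℤ) + a := by
    rw [hj, ← sub_neg_eq_add, ← Int.modEq_iff_dvd]
    exact (Int.mod_modEq _ _).symm
  set G := f ^ i * E.H ^ j
  have hG0 : G ≠ 0 := mul_ne_zero (pow_ne_zero _ d.ne_zero) (pow_ne_zero _ dH.ne_zero)
  have hGfix : J.Fixed G := (hfix.pow i).mul (E.fixed.pow j)
  obtain ⟨dG, hdG⟩ := exists_fixed_scaledRed hG0 hGfix
  have hgood : Q ∈ dG.good n S 0 := by
    refine ScaledRed.mem_good.mpr ⟨hQ, ?_⟩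
    rw [((d.pow i).mul (dH.pow j)).ord_p_eq dG 0,
      show ((d.pow i).mul (dH.pow j)).p 0 = d.p 0 ^ i * dH.p 0 ^ j from rfl,
      Place.ord_mul _ (pow_ne_zero _ (d.p_ne 0)) (pow_ne_zero _ (dH.p_ne 0)),
      FLTA.Curves.ord_pow, FLTA.Curves.ord_pow]
    show (n : ℤ) ∣ i * a + j * h
    rw [show (i : ℤ) * a + j * h = ((i : ℤ) - h) * a + ((j : ℤ) + a) * h by ring]
    exact dvd_add (dvd_mul_of_dvd_left hci _) (dvd_mul_of_dvd_left hcj _)
  obtain ⟨δ, hδ⟩ := exists_scalars hn dG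
  have hδ0 : ∀ l, δ l ≠ 0 := fun l h0 => by
    have := hδ l
    rw [h0, zero_pow hn.ne', zero_mul] at this
    exact zero_ne_one this
  obtain ⟨C, U, hC, hU, hCU⟩ : ∃ (C : Finset (Place K F)) (U : Fin 2 → Finset (Place k Fk)),
      (∀ v : Place K F, v ≠ B.P 0 → v ≠ B.P 1 → v ∉ C → (n : ℤ) ∣ v.ord G) ∧
      (∀ l, ∀ u ∈ U l, ¬ (n : ℤ) ∣ dG.wDiv l u ∧ ∀ Q ∈ S, B.nodePt l Q ≠ u) ∧
      C.card ≤ (U 0).card + (U 1).card := by
    have hordG : ∀ v : Place K F, v.ord G = i * v.ord f + j * v.ord E.H := fun v => by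
      rw [v.ord_mul (pow_ne_zero _ d.ne_zero) (pow_ne_zero _ dH.ne_zero), FLTA.Curves.ord_pow,
        FLTA.Curves.ord_pow]
    by_cases hnj : (n : ℤ) ∣ (j : ℤ)
    · refine ⟨∅, fun _ => ∅, fun v h0 h1 _ => ?_, fun l u hu => absurd hu (Finset.notMem_empty u),
        le_refl 0⟩
      rw [hordG]
      exact dvd_add (dvd_mul_of_dvd_right (hdvd v h0 h1) _) (dvd_mul_of_dvd_left hnj _)
    refine ⟨E.C, E.U, fun v h0 h1 hv => ?_, fun l u hu => ⟨fun hdvdu => hnj ?_, E.not_node S m₀ hS l u hu⟩,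
      E.card_le⟩
    · rw [hordG]
      exact dvd_add (dvd_mul_of_dvd_right (hdvd v h0 h1) _)
        (dvd_mul_of_dvd_right (E.ord_dvd v h0 h1 hv) _)
    have hf := (good_zero_eq_good_one hS hn hdvd d).2 l u (E.not_node S m₀ hS l u hu)
    rw [d.wDiv_of_ne l (E.ne_infk l u hu)] at hf
    rw [dG.wDiv_of_ne l (E.ne_infk l u hu), ((d.pow i).mul (dH.pow j)).ord_p_eq dG l,
      show ((d.pow i).mul (dH.pow j)).p l = d.p l ^ i * dH.p l ^ j from rfl,
      Place.ord_mul _ (pow_ne_zero _ (d.p_ne l)) (pow_ne_zero _ (dH.p_ne l)),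
      FLTA.Curves.ord_pow, FLTA.Curves.ord_pow,
      dvd_add_right (dvd_mul_of_dvd_right hf _)] at hdvdu
    exact (E.coprime dH l u hu).dvd_of_dvd_mul_right hdvdu
  obtain ⟨m, hm⟩ := J.exists_val (δ 0 / δ 1) (div_ne_zero (hδ0 0) (hδ0 1))
    fun s hs => ratio_fixed_of_good hS hnk C hC hGfix dG U hU hCU hdG hδ ⟨Q, hgood⟩ hs
  have hpow : HasVal A q (dG.c 1 / dG.c 0) ((n : ℤ) * m) := by
    have e : dG.c 1 / dG.c 0 = (δ 0 / δ 1) ^ n := by
      rw [div_pow, eq_inv_of_mul_eq_one_left (hδ 0), eq_inv_of_mul_eq_one_left (hδ 1), inv_div_inv]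
    rw [e]
    exact hm.pow n
  have hsum := ((hvf.pow i).mul (E.diffVal.pow j)).hasVal dG
  have heq := hsum.unique π hpow
  rw [show h * vf - a * E.e = ((i : ℤ) * vf + j * E.e) - ((i : ℤ) - h) * vf -
      ((j : ℤ) + a) * E.e by ring, heq]
  exact dvd_sub (dvd_sub (dvd_mul_right _ _) (dvd_mul_of_dvd_left hci _))
    (dvd_mul_of_dvd_left hcj _)

/-- If `n ∣ vf` the reductions have divisors divisible by `n`. -/
theorem dvd_ord_red (hS : B.IsGluing S m₀) (hnk : (n : k) ≠ 0) (E : B.EtaFun J n)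
    (he : IsCoprime (n : ℤ) E.e) {f : F} (hfix : J.Fixed f)
    (hdvd : ∀ v : Place K F, (n : ℤ) ∣ v.ord f) (d : B.ScaledRed f) {vf : ℤ}
    (hvf : B.DiffVal f vf) (hnvf : (n : ℤ) ∣ vf) (i : Fin 2) (v : Place k Fk) :
    (n : ℤ) ∣ v.ord (d.p i) := by
  classical
  have hn : 0 < n := Nat.pos_of_ne_zero fun h => hnk (by rw [h, Nat.cast_zero])
  obtain ⟨dH, -⟩ := exists_fixed_scaledRed (J := J) E.diffVal.ne_zero E.fixed
  have hdvd' : B.DvdOffCusps n f := fun u _ _ => hdvd u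
  obtain ⟨h01, hout⟩ := good_zero_eq_good_one hS hn hdvd' d
  have h0 : ∀ Q ∈ S, Q ∈ d.good n S 0 := fun Q hQ => by
    refine ScaledRed.mem_good.mpr ⟨hQ, ?_⟩
    have h := node_congr hS hnk E hfix hdvd' d hvf dH hQ
    rw [dvd_sub_right (dvd_mul_of_dvd_right hnvf _)] at h
    exact he.dvd_of_dvd_mul_right h
  have hall : ∀ Q ∈ S, Q ∈ d.good n S i := fun Q hQ => by
    revert i
    exact Fin.forall_fin_two.mpr ⟨h0 Q hQ, h01 ▸ h0 Q hQ⟩
  by_cases hx : ∃ Q ∈ S, B.nodePt i Q = v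
  · obtain ⟨Q, hQ, rfl⟩ := hx
    exact (ScaledRed.mem_good.mp (hall Q hQ)).2
  have h := hout i v fun Q hQ hQv => hx ⟨Q, hQ, hQv⟩
  rcases eq_or_ne v B.infk with rfl | hv
  · rw [d.wDiv_infk] at h
    simpa using dvd_add h (hdvd (B.P i))
  · rwa [d.wDiv_of_ne i hv] at h

/-- A function whose `n`-th power is fixed up to a constant has a valuation difference. -/
theorem exists_diffVal_of_pow (hn : 0 < n) {c : K} {h : F} (hc : c ≠ 0) (hh : h ≠ 0)
    (hfix : J.Fixed (c • h ^ n)) : ∃ v, B.DiffVal h v := by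
  have hlead := Ramified.coeff_ord_ne_zero B.ex (P := B.P 0) B.ord_P_zero hh
  set b := ((B.ex h).coeff ((B.P 0).ord h))⁻¹
  have hb : b ≠ 0 := inv_ne_zero hlead
  set h₁ := b • h with hh₁
  have hh₁0 : h₁ ≠ 0 := smul_ne_zero hb hh
  have hord : (B.P 0).ord h₁ = (B.P 0).ord h := by
    rw [hh₁, Algebra.smul_def, Place.ord_mul _ ((map_ne_zero _).mpr hb) hh, ord_algebraMap,
      zero_add]
  have hmonic : (B.ex h₁).coeff ((B.P 0).ord h₁) = 1 := by
    rw [hord, hh₁, Ramified.coeff_algHom_smul]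
    exact inv_mul_cancel₀ hlead
  have hfix₁ : J.Fixed h₁ := fun s hs => by
    have hs₁ : s.σ • h₁ ≠ 0 := (smul_ne_zero_iff_ne s.σ).mpr hh₁0
    have hzero : ∀ v : Place K F, v.ord (s.σ • h₁ * h₁⁻¹) = 0 := fun v => by
      have e := congrArg (fun z => v.ord z) (hfix s hs)
      have e' : c • h ^ n = algebraMap K F (c / b ^ n) * h₁ ^ n := by
        rw [hh₁, smul_pow, Algebra.smul_def, Algebra.smul_def, ← mul_assoc, ← map_mul,
          div_mul_cancel₀ _ (pow_ne_zero _ hb)]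
      have hcb : c / b ^ n ≠ 0 := div_ne_zero hc (pow_ne_zero _ hb)
      simp only [e', smul_mul', SemilinearAut.smul_algebraMap, smul_pow'] at e
      rw [v.ord_mul ((map_ne_zero _).mpr ((map_ne_zero _).mpr hcb)) (pow_ne_zero _ hs₁),
        v.ord_mul ((map_ne_zero _).mpr hcb) (pow_ne_zero _ hh₁0), ord_algebraMap, ord_algebraMap,
        zero_add, zero_add, FLTA.Curves.ord_pow, FLTA.Curves.ord_pow] at e
      rw [v.ord_mul hs₁ (inv_ne_zero hh₁0), v.ord_inv,
        mul_left_cancel₀ (Int.natCast_ne_zero.mpr hn.ne') e, add_neg_cancel]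
    obtain ⟨u, hu⟩ := Ramified.exists_eq_algebraMap_of_ord B.ex (P := B.P 0) B.ord_P_zero B.rrF
      hzero
    refine Ramified.smul_eq_self_of_monic B.ex (P := B.P 0) s.ex_σ hmonic (c := u) ?_
    rw [Algebra.smul_def, ← hu, inv_mul_cancel_right₀ hh₁0]
  obtain ⟨v, hv⟩ := J.exists_diffVal hh₁0 hfix₁
  refine ⟨v, ?_⟩
  have := hv.mul (DiffVal.const (B := B) (inv_ne_zero hb))
  rwa [add_zero, mul_comm, ← Algebra.smul_def, hh₁, inv_smul_smul₀ hb] at this

section Hecke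

variable {l : ℕ} [NeZero l] (D : LevelLowering.HeckeData B l) {f : F} {a : ℤ} {c : K} {h : F}

/-- The scaling of the image of `f` under `T`. -/
def ScaledRed.heckeImage (d : B.ScaledRed f) : B.ScaledRed (D.T f) where
  c i := d.c i ^ (l + 1)
  p i := D.Tk (d.p i)
  p_ne i := D.Tk_ne_zero (d.p_ne i)
  red i := by
    have h := D.hasRed_T (d.red i)
    rwa [Algebra.smul_def, map_mul, D.T_algebraMap, ← Algebra.smul_def] at h

/-- The relation forces `n ∣ (a - (l + 1)) vf`. -/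
theorem dvd_of_hecke_eigen (hn : 0 < n) (hfix : J.Fixed f) {vf : ℤ} (hvf : B.DiffVal f vf)
    (heig : D.T f = algebraMap K F c * f ^ a * h ^ n) :
    (n : ℤ) ∣ (a - (l + 1)) * vf := by
  have hf := hvf.ne_zero
  have hT0 := D.T_ne_zero hf
  rw [heig] at hT0
  have hc : c ≠ 0 := fun h0 => hT0 (by rw [h0, map_zero, zero_mul, zero_mul])
  have hh : h ≠ 0 := fun h0 => hT0 (by rw [h0, zero_pow hn.ne', mul_zero])
  obtain ⟨dT, hdT⟩ : B.DiffVal (D.T f) (((l + 1 : ℕ) : ℤ) * vf) := by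
    obtain ⟨d, hd⟩ := hvf
    refine ⟨d.heckeImage D, ?_⟩
    show HasVal A q (d.c 1 ^ (l + 1) / d.c 0 ^ (l + 1)) _
    rw [← div_pow]
    exact hd.pow (l + 1)
  have hfixh : J.Fixed (c • h ^ n) := fun s hs => by
    have e : c • h ^ n = D.T f * (f ^ a)⁻¹ := by
      have := zpow_ne_zero a hf
      rw [heig, Algebra.smul_def]
      field_simp
    rw [e, smul_mul', smul_inv'', D.smul_T, hfix s hs]
    congr 2
    obtain ⟨j, rfl | rfl⟩ := Int.eq_nat_or_neg a
    · rw [zpow_natCast, smul_pow', hfix s hs]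
    · rw [zpow_neg, zpow_natCast, smul_inv'', smul_pow', hfix s hs]
  obtain ⟨vh, hvh⟩ := exists_diffVal_of_pow hn hc hh hfixh
  have hprod := (((DiffVal.const (B := B) hc).mul (hvf.zpow a)).mul (hvh.pow n))
  rw [← heig] at hprod
  have e := hprod.unique ⟨dT, hdT⟩
  refine ⟨-vh, ?_⟩
  push_cast at e
  linear_combination e

/-- The relation passes to the reductions. -/
theorem red_hecke_eigen (hn : 0 < n) (d : B.ScaledRed f)
    (heig : D.T f = algebraMap K F c * f ^ a * h ^ n) (i : Fin 2) :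
    ∃ (u : k) (r : Fk), D.Tk (d.p i) = algebraMap k Fk u * d.p i ^ a * r ^ n := by
  have hT0 := D.T_ne_zero d.ne_zero
  rw [heig] at hT0
  have hc : c ≠ 0 := fun h0 => hT0 (by rw [h0, map_zero, zero_mul, zero_mul])
  have hh : h ≠ 0 := fun h0 => hT0 (by rw [h0, zero_pow hn.ne', mul_zero])
  choose ch r hch hr0 hr using fun j => B.exists_hasRed_smul j hh
  let dh : B.ScaledRed h := ⟨ch, r, hr0, hr⟩
  obtain ⟨da, hda⟩ := d.exists_zpow a
  obtain ⟨dT, hdT⟩ : ∃ dT : B.ScaledRed (D.T f),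
      dT.p i = d.p i ^ a * dh.p i ^ n := by
    rw [heig]
    refine ⟨((ScaledRed.const hc).mul da).mul (dh.pow n), ?_⟩
    show 1 * da.p i * dh.p i ^ n = _
    rw [one_mul, hda]
  obtain ⟨u, -, hu⟩ := dT.exists_p_eq (d.heckeImage D) i
  refine ⟨u, dh.p i, ?_⟩
  rw [show D.Tk (d.p i) = (d.heckeImage D).p i from rfl, hu, hdT, mul_assoc]

end Hecke

/-- A class whose Kummer function reduces to constants times `n`-th powers is toric. -/
theorem isToric_of_scaledRed {x : Pic0 K F} {Dv : Divisor.degZero (K := K) (F := F)} {f : F}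
    (hDx : Pic0.mk Dv = x) (hD : ∀ v : Place K F, (n : ℤ) * (Dv : Divisor K F) v = v.ord f)
    (d : B.ScaledRed f) (hn : 0 < n) (hpow : ∀ i, ∃ η : Fk, η ^ n = d.p i) : B.IsToric n x :=
  ⟨Dv, f, d.ne_zero, hDx, hD, fun i => by
    obtain ⟨η, hη⟩ := hpow i
    refine ⟨d.c i, η, d.c_ne i, fun h0 => d.p_ne i ?_, by rw [hη]; exact d.red i⟩
    rw [← hη, h0, zero_pow hn.ne']⟩

end FLTA.BadRed.BadFibre

end
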